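import Mathlib.RingTheory.Valuation.LocalSubring
import Mathlib.RingTheory.IntegralClosure.IsIntegralClosure.Basic
import Mathlib.RingTheory.Adjoin.Basic

/-!
# A2 / MOD (d5), piece COORD (helper408): the coordinate `x = j * j'`

Mathlib-only.  `K` a field, `A → K` a base ring, `j, j' ∈ K` with `j` integral over `A[j']` and
`j'` integral over `A[j]` (application: `j' = j_q = j(t^q)`, both integralities come from the
modular polynomial `Φ_q`, monic in both variables: `S28.ModPolyData.eval_j / eval_jp`).

* `isIntegral_iff_forall_valuationSubring` : valuation criterion for integrality over a subring.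
* `isIntegral_adjoin_iff_forall_valuationSubring` : the same for `Algebra.adjoin A s`.
* `isIntegral_adjoin_mul_self` : `j` is integral over `A[j * j']`
  (if `j ∉ V ⊇ A[j j']` then `j' = (j j') j⁻¹ ∈ V`, hence `j ∈ V`).  No information on the shape of
  `Φ_q` is needed (contrary to the coordinate `j + j'`).
* `isIntegral_adjoin_mul_iff` : `IC(A[j j']) = IC(A[j])`  (finite chart).
* `isIntegral_adjoin_inv_mul_iff` : `IC(A[(j j')⁻¹]) = IC(A[j⁻¹, j'⁻¹])`  (chart at infinity).
-/

set_option autoImplicit false

namespace Fermat.Agent.A2.H408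

open Algebra

section Criterion

variable {K : Type*} [Field K]

/-- **Valuation criterion**: `f` is integral over the subring `S` of the field `K` iff `f` lies
in every valuation subring of `K` containing `S`. -/
theorem isIntegral_iff_forall_valuationSubring (S : Subring K) (f : K) :
    IsIntegral S f ↔ ∀ V : ValuationSubring K, S ≤ V.toSubring → f ∈ V := by
  constructor
  · intro hf V hSV
    have hfV : IsIntegral V.toSubring f := by
      obtain ⟨p, hp, hpf⟩ := hf
      refine ⟨p.map (Subring.inclusion hSV), hp.map _, ?_⟩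
      rw [Polynomial.eval₂_map]
      exact hpf
    have : IsIntegrallyClosedIn V.toSubring K := inferInstanceAs (IsIntegrallyClosedIn V K)
    obtain ⟨y, hy⟩ := IsIntegrallyClosedIn.isIntegral_iff.mp hfV
    rw [← hy]
    exact y.2
  · intro h
    have key := iInf_valuationSubring_superset (K := K) (s := (S : Set K))
    have hmem : f ∈ (⨅ V : {V : ValuationSubring K // (S : Set K) ⊆ V.toSubring},
        V.1.toSubring) := by
      rw [Subring.mem_iInf]
      rintro ⟨V, hV⟩
      exact h V hV
    rw [key] at hmem
    have hcl : Subring.closure (S : Set K) = S := Subring.closure_eq S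
    have hf : IsIntegral (Subring.closure (S : Set K)) f := hmem
    rw [hcl] at hf
    exact hf

end Criterion

section Adjoin

variable {A K : Type*} [CommRing A] [Field K] [Algebra A K]

/-- **Valuation criterion** for `Algebra.adjoin A s`. -/
theorem isIntegral_adjoin_iff_forall_valuationSubring (s : Set K) (f : K) :
    IsIntegral (Algebra.adjoin A s) f ↔
      ∀ V : ValuationSubring K, (∀ a : A, algebraMap A K a ∈ V) → (∀ y ∈ s, y ∈ V) → f ∈ V := by
  have h1 : IsIntegral (Algebra.adjoin A s) f ↔ IsIntegral (Algebra.adjoin A s).toSubring f :=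
    Iff.rfl
  rw [h1, isIntegral_iff_forall_valuationSubring, Algebra.adjoin_eq_ring_closure]
  constructor
  · intro h V hA hs
    refine h V ?_
    rw [Subring.closure_le]
    rintro y (⟨a, rfl⟩ | hy)
    · exact hA a
    · exact hs y hy
  · intro h V hV
    rw [Subring.closure_le] at hV
    exact h V (fun a => hV (Or.inl ⟨a, rfl⟩)) (fun y hy => hV (Or.inr hy))

/-- If `j` is integral over `A[j']`, then `j` is integral over `A[j * j']`. -/
theorem isIntegral_adjoin_mul_self {j j' : K} (hj : IsIntegral (Algebra.adjoin A {j'}) j) :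
    IsIntegral (Algebra.adjoin A {j * j'}) j := by
  rw [isIntegral_adjoin_iff_forall_valuationSubring] at hj ⊢
  intro V hA hs
  have hx : j * j' ∈ V := hs _ rfl
  by_contra hjV
  have hj0 : j ≠ 0 := by rintro rfl; exact hjV (zero_mem _)
  have hinv : j⁻¹ ∈ V := (V.mem_or_inv_mem j).resolve_left hjV
  have hj' : j' ∈ V := by
    have : j' = j⁻¹ * (j * j') := by field_simp
    rw [this]
    exact mul_mem hinv hx
  refine hjV (hj V hA ?_)
  intro y hy
  rw [Set.mem_singleton_iff] at hy
  subst hy
  exact hj'

/-- If `j'` is integral over `A[j]`, then `j'` is integral over `A[j * j']`. -/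
theorem isIntegral_adjoin_mul_self' {j j' : K} (hj' : IsIntegral (Algebra.adjoin A {j}) j') :
    IsIntegral (Algebra.adjoin A {j * j'}) j' := by
  rw [mul_comm]
  exact isIntegral_adjoin_mul_self hj'

/-- A valuation ring containing `A` contains `j * j'` iff it contains `j`. -/
theorem mul_mem_valuationSubring_iff {j j' : K} (hj : IsIntegral (Algebra.adjoin A {j'}) j)
    (hj' : IsIntegral (Algebra.adjoin A {j}) j') (V : ValuationSubring K)
    (hA : ∀ a : A, algebraMap A K a ∈ V) : j * j' ∈ V ↔ j ∈ V := by
  constructor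
  · intro hx
    have := (isIntegral_adjoin_iff_forall_valuationSubring (A := A) {j * j'} j).mp
      (isIntegral_adjoin_mul_self hj) V hA
    refine this ?_
    intro y hy
    rw [Set.mem_singleton_iff] at hy
    subst hy
    exact hx
  · intro hjV
    have := (isIntegral_adjoin_iff_forall_valuationSubring (A := A) {j} j').mp hj' V hA
    refine mul_mem hjV (this ?_)
    intro y hy
    rw [Set.mem_singleton_iff] at hy
    subst hy
    exact hjV

/-- **Finite chart**: the integral closures of `A[j * j']` and of `A[j]` in `K` coincide. -/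
theorem isIntegral_adjoin_mul_iff {j j' : K} (hj : IsIntegral (Algebra.adjoin A {j'}) j)
    (hj' : IsIntegral (Algebra.adjoin A {j}) j') (f : K) :
    IsIntegral (Algebra.adjoin A {j * j'}) f ↔ IsIntegral (Algebra.adjoin A {j}) f := by
  rw [isIntegral_adjoin_iff_forall_valuationSubring, isIntegral_adjoin_iff_forall_valuationSubring]
  constructor
  · intro h V hA hs
    refine h V hA ?_
    intro y hy
    rw [Set.mem_singleton_iff] at hy
    subst hy
    exact (mul_mem_valuationSubring_iff hj hj' V hA).mpr (hs _ rfl)
  · intro h V hA hs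
    refine h V hA ?_
    intro y hy
    rw [Set.mem_singleton_iff] at hy
    subst hy
    exact (mul_mem_valuationSubring_iff hj hj' V hA).mp (hs _ rfl)

/-- The same with the roles of `j` and `j'` exchanged. -/
theorem isIntegral_adjoin_mul_iff' {j j' : K} (hj : IsIntegral (Algebra.adjoin A {j'}) j)
    (hj' : IsIntegral (Algebra.adjoin A {j}) j') (f : K) :
    IsIntegral (Algebra.adjoin A {j * j'}) f ↔ IsIntegral (Algebra.adjoin A {j'}) f := by
  rw [mul_comm]
  exact isIntegral_adjoin_mul_iff hj' hj f

/-- A valuation ring containing `A` contains `(j * j')⁻¹` iff it contains `j⁻¹` and `j'⁻¹`. -/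
theorem inv_mul_mem_valuationSubring_iff {j j' : K} (hj : IsIntegral (Algebra.adjoin A {j'}) j)
    (hj' : IsIntegral (Algebra.adjoin A {j}) j') (hj0 : j ≠ 0) (hj'0 : j' ≠ 0)
    (V : ValuationSubring K) (hA : ∀ a : A, algebraMap A K a ∈ V) :
    (j * j')⁻¹ ∈ V ↔ j⁻¹ ∈ V ∧ j'⁻¹ ∈ V := by
  have hjj' : j ∈ V → j' ∈ V := fun hjV =>
    (isIntegral_adjoin_iff_forall_valuationSubring (A := A) {j} j').mp hj' V hA
      (fun y hy => by rw [Set.mem_singleton_iff] at hy; subst hy; exact hjV)
  have hj'j : j' ∈ V → j ∈ V := fun hjV =>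
    (isIntegral_adjoin_iff_forall_valuationSubring (A := A) {j'} j).mp hj V hA
      (fun y hy => by rw [Set.mem_singleton_iff] at hy; subst hy; exact hjV)
  constructor
  · intro hx
    by_cases hjV : j ∈ V
    · have hj'V : j' ∈ V := hjj' hjV
      refine ⟨?_, ?_⟩
      · have : j⁻¹ = j' * (j * j')⁻¹ := by field_simp
        rw [this]
        exact mul_mem hj'V hx
      · have : j'⁻¹ = j * (j * j')⁻¹ := by field_simp
        rw [this]
        exact mul_mem hjV hx
    · have hj'V : j' ∉ V := fun h => hjV (hj'j h)
      exact ⟨(V.mem_or_inv_mem j).resolve_left hjV, (V.mem_or_inv_mem j').resolve_left hj'V⟩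
  · rintro ⟨h1, h2⟩
    rw [mul_inv]
    exact mul_mem h1 h2

/-- **Chart at infinity**: the integral closures of `A[(j * j')⁻¹]` and of `A[j⁻¹, j'⁻¹]` in `K`
coincide. -/
theorem isIntegral_adjoin_inv_mul_iff {j j' : K} (hj : IsIntegral (Algebra.adjoin A {j'}) j)
    (hj' : IsIntegral (Algebra.adjoin A {j}) j') (hj0 : j ≠ 0) (hj'0 : j' ≠ 0) (f : K) :
    IsIntegral (Algebra.adjoin A {(j * j')⁻¹}) f ↔
      IsIntegral (Algebra.adjoin A ({j⁻¹, j'⁻¹} : Set K)) f := by
  rw [isIntegral_adjoin_iff_forall_valuationSubring, isIntegral_adjoin_iff_forall_valuationSubring]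
  constructor
  · intro h V hA hs
    refine h V hA ?_
    intro y hy
    rw [Set.mem_singleton_iff] at hy
    subst hy
    exact (inv_mul_mem_valuationSubring_iff hj hj' hj0 hj'0 V hA).mpr
      ⟨hs _ (Set.mem_insert _ _), hs _ (Set.mem_insert_of_mem _ rfl)⟩
  · intro h V hA hs
    have := (inv_mul_mem_valuationSubring_iff hj hj' hj0 hj'0 V hA).mp (hs _ rfl)
    refine h V hA ?_
    rintro y (rfl | hy)
    · exact this.1
    · rw [Set.mem_singleton_iff] at hy
      subst hy
      exact this.2

/-- Transport of integrality: everything integral over `A[j]` is integral over `A[j * j']`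
(application: all `j_d`, `d ∣ N`). -/
theorem isIntegral_adjoin_mul_of_isIntegral {j j' : K} (hj : IsIntegral (Algebra.adjoin A {j'}) j)
    (hj' : IsIntegral (Algebra.adjoin A {j}) j') {f : K}
    (hf : IsIntegral (Algebra.adjoin A {j}) f) : IsIntegral (Algebra.adjoin A {j * j'}) f :=
  (isIntegral_adjoin_mul_iff hj hj' f).mpr hf

end Adjoin

end Fermat.Agent.A2.H408
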