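import Mathlib

/-!
# A2 (helper408): formal normal form of a node — `x * y - ϖ * h = x' * y' - ϖ * c`

Pure commutative algebra (Mathlib only).  Let `S` be an `R`-algebra, `ϖ : R`, both `R` and `S`
`ϖ`-adically complete, and `x y : S` "coordinates" in the weak sense that every element of `S`
is `constant + x * a + y * b` modulo `ϖ`.  Then every "deformation" `x * y - ϖ * h` of the node
`x * y` is, after the change of coordinates `x' = x - ϖ * b`, `y' = y - ϖ * a`, of the form
`x' * y' - ϖ * c` with `c` a CONSTANT.  No information on `h` is needed (in particular no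
"thickness" computation): this is the local structure of the plane model of `X₀(q)` at the
supersingular points, deduced from Kronecker's congruence alone.
-/

set_option autoImplicit false

namespace Fermat.Agent.A2.H408

open Ideal

section Adic

variable {S : Type*} [CommRing S] (ϖ : S)

/-- Membership in `(ϖ)^n • ⊤` is divisibility by `ϖ ^ n`. -/
lemma sModEq_span_pow_iff (n : ℕ) (a b : S) :
    a ≡ b [SMOD ((Ideal.span {ϖ}) ^ n • ⊤ : Submodule S S)] ↔ ϖ ^ n ∣ a - b := by
  rw [SModEq.sub_mem, smul_eq_mul, Ideal.mul_top, Ideal.span_singleton_pow,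
    Ideal.mem_span_singleton]

/-- In a `ϖ`-adically separated ring, an element divisible by all powers of `ϖ` is zero. -/
lemma eq_zero_of_forall_pow_dvd [IsHausdorff (Ideal.span {ϖ}) S] (a : S)
    (h : ∀ n : ℕ, ϖ ^ n ∣ a) : a = 0 := by
  refine IsHausdorff.haus ‹_› a fun n => ?_
  rw [sModEq_span_pow_iff]
  simpa using h n

/-- In a `ϖ`-adically precomplete ring, a sequence with `ϖ ^ n ∣ f (n + 1) - f n` has a limit. -/
lemma exists_adic_limit [IsPrecomplete (Ideal.span {ϖ}) S] (f : ℕ → S)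
    (hf : ∀ n : ℕ, ϖ ^ n ∣ f (n + 1) - f n) : ∃ L : S, ∀ n : ℕ, ϖ ^ n ∣ L - f n := by
  have key : ∀ m k : ℕ, ϖ ^ m ∣ f (m + k) - f m := by
    intro m k
    induction k with
    | zero => simp
    | succ k ih =>
      have h1 : ϖ ^ m ∣ f (m + k + 1) - f (m + k) :=
        (pow_dvd_pow ϖ (Nat.le_add_right m k)).trans (hf (m + k))
      have : f (m + (k + 1)) - f m = (f (m + k + 1) - f (m + k)) + (f (m + k) - f m) := by
        rw [← add_assoc]; ring
      rw [this]
      exact dvd_add h1 ih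
  obtain ⟨L, hL⟩ := IsPrecomplete.prec ‹_› (f := f) (by
    intro m n hmn
    rw [sModEq_span_pow_iff]
    obtain ⟨k, rfl⟩ := Nat.exists_eq_add_of_le hmn
    have := key m k
    rw [← neg_sub] 
    exact (dvd_neg).mpr this)
  refine ⟨L, fun n => ?_⟩
  have := hL n
  rw [sModEq_span_pow_iff] at this
  rw [← neg_sub]
  exact (dvd_neg).mpr this

end Adic

section NormalForm

variable {R S : Type*} [CommRing R] [CommRing S] [Algebra R S]

/-- One step of the iteration: the state of the approximation at stage `n`. -/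
structure NFState (ϖ : R) (x y h : S) (n : ℕ) where
  /-- the constant -/
  c : R
  /-- correction of `y` -/
  a : S
  /-- correction of `x` -/
  b : S
  /-- the error, divided by `ϖ ^ n` -/
  s : S
  eq : h = algebraMap R S c + x * a + y * b - algebraMap R S ϖ * (a * b) +
    algebraMap R S ϖ ^ n * s

variable (ϖ : R) (x y : S)
  (hgen : ∀ s : S, ∃ (c : R) (a b t : S),
    s = algebraMap R S c + x * a + y * b + algebraMap R S ϖ * t)

include hgen in
/-- The step of the iteration. -/
lemma exists_nfState_succ (h : S) (n : ℕ) (σ : NFState ϖ x y h n) :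
    ∃ σ' : NFState ϖ x y h (n + 1), ϖ ^ n ∣ σ'.c - σ.c ∧
      algebraMap R S ϖ ^ n ∣ σ'.a - σ.a ∧ algebraMap R S ϖ ^ n ∣ σ'.b - σ.b := by
  obtain ⟨c', a', b', t, ht⟩ := hgen σ.s
  set p := algebraMap R S ϖ with hp
  refine ⟨⟨σ.c + ϖ ^ n * c', σ.a + p ^ n * a', σ.b + p ^ n * b',
    t + (a' * σ.b + σ.a * b') + p ^ n * (a' * b'), ?_⟩, ⟨c', by ring⟩, ⟨a', by ring⟩, ⟨b', by ring⟩⟩
  have e := σ.eq
  rw [ht] at e
  refine e.trans ?_
  rw [map_add, map_mul, map_pow]
  ring

/-- The sequence of approximations. -/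
noncomputable def nfSeq (h : S) : (n : ℕ) → NFState ϖ x y h n
  | 0 => ⟨0, 0, 0, h, by simp⟩
  | n + 1 => (exists_nfState_succ ϖ x y hgen h n (nfSeq h n)).choose

lemma nfSeq_succ_spec (h : S) (n : ℕ) :
    ϖ ^ n ∣ (nfSeq ϖ x y hgen h (n + 1)).c - (nfSeq ϖ x y hgen h n).c ∧
      algebraMap R S ϖ ^ n ∣ (nfSeq ϖ x y hgen h (n + 1)).a - (nfSeq ϖ x y hgen h n).a ∧
      algebraMap R S ϖ ^ n ∣ (nfSeq ϖ x y hgen h (n + 1)).b - (nfSeq ϖ x y hgen h n).b :=
  (exists_nfState_succ ϖ x y hgen h n (nfSeq ϖ x y hgen h n)).choose_spec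

include hgen in
/-- **Node normal form, additive version.**  Every `h` can be written as
`c + x * a + y * b - ϖ * a * b` with `c` a constant. -/
theorem exists_node_decomposition [IsAdicComplete (Ideal.span {ϖ}) R]
    [IsAdicComplete (Ideal.span {algebraMap R S ϖ}) S] (h : S) :
    ∃ (c : R) (a b : S),
      h = algebraMap R S c + x * a + y * b - algebraMap R S ϖ * (a * b) := by
  set p := algebraMap R S ϖ with hp
  obtain ⟨c, hc⟩ := exists_adic_limit ϖ (fun n => (nfSeq ϖ x y hgen h n).c)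
    (fun n => (nfSeq_succ_spec ϖ x y hgen h n).1)
  obtain ⟨a, ha⟩ := exists_adic_limit p (fun n => (nfSeq ϖ x y hgen h n).a)
    (fun n => (nfSeq_succ_spec ϖ x y hgen h n).2.1)
  obtain ⟨b, hb⟩ := exists_adic_limit p (fun n => (nfSeq ϖ x y hgen h n).b)
    (fun n => (nfSeq_succ_spec ϖ x y hgen h n).2.2)
  refine ⟨c, a, b, ?_⟩
  rw [← sub_eq_zero]
  refine eq_zero_of_forall_pow_dvd p _ fun n => ?_
  obtain ⟨c', hc'⟩ := hc n
  obtain ⟨a', ha'⟩ := ha n
  obtain ⟨b', hb'⟩ := hb n
  have e := (nfSeq ϖ x y hgen h n).eq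
  have hc'' : algebraMap R S c = algebraMap R S (nfSeq ϖ x y hgen h n).c + p ^ n * algebraMap R S c' := by
    rw [hp, ← map_pow, ← map_mul, ← map_add, ← hc']; congr 1; ring
  have ha'' : a = (nfSeq ϖ x y hgen h n).a + p ^ n * a' := by rw [← ha']; ring
  have hb'' : b = (nfSeq ϖ x y hgen h n).b + p ^ n * b' := by rw [← hb']; ring
  refine ⟨(nfSeq ϖ x y hgen h n).s - algebraMap R S c' - x * a' - y * b' +
    p * (a' * (nfSeq ϖ x y hgen h n).b + (nfSeq ϖ x y hgen h n).a * b' + p ^ n * (a' * b')), ?_⟩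
  rw [hc'', ha'', hb'']
  refine (congrArg (fun z => z - _) e).trans ?_
  ring

include hgen in
/-- **Node normal form.**  `x * y - ϖ * h = (x - ϖ * b) * (y - ϖ * a) - ϖ * c` with `c` a
constant: a deformation of a node is a node. -/
theorem exists_node_normal_form [IsAdicComplete (Ideal.span {ϖ}) R]
    [IsAdicComplete (Ideal.span {algebraMap R S ϖ}) S] (h : S) :
    ∃ (c : R) (a b : S),
      x * y - algebraMap R S ϖ * h =
        (x - algebraMap R S ϖ * b) * (y - algebraMap R S ϖ * a) - algebraMap R S (ϖ * c) := by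
  obtain ⟨c, a, b, e⟩ := exists_node_decomposition ϖ x y hgen h
  refine ⟨c, a, b, ?_⟩
  rw [e, map_mul]
  ring

end NormalForm

end Fermat.Agent.A2.H408
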