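import Mathlib
import Fermat.Agent.A2.H408.NodeNormalForm

/-!
# A2 (helper408): `R⟦σ⟧` is `ϖ`-adically complete when `R` is

Coefficientwise limits.  Mathlib only.
-/

set_option autoImplicit false

namespace Fermat.Agent.A2.H408

open Ideal

section Criterion

variable {S : Type*} [CommRing S] (ϖ : S)

/-- Adic completeness for a principal ideal, in terms of divisibility. -/
lemma isAdicComplete_span_singleton_of_dvd
    (haus : ∀ a : S, (∀ n : ℕ, ϖ ^ n ∣ a) → a = 0)
    (prec : ∀ f : ℕ → S, (∀ m n : ℕ, m ≤ n → ϖ ^ m ∣ f n - f m) →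
      ∃ L : S, ∀ n : ℕ, ϖ ^ n ∣ L - f n) :
    IsAdicComplete (Ideal.span {ϖ}) S where
  haus' := by
    intro a ha
    refine haus a fun n => ?_
    have := ha n
    rw [sModEq_span_pow_iff] at this
    simpa using this
  prec' := by
    intro f hf
    obtain ⟨L, hL⟩ := prec f (by
      intro m n hmn
      have := hf hmn
      rw [sModEq_span_pow_iff] at this
      rw [← neg_sub]
      exact (dvd_neg).mpr this)
    refine ⟨L, fun n => ?_⟩
    rw [sModEq_span_pow_iff, ← neg_sub]
    exact (dvd_neg).mpr (hL n)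

/-- Converse direction: the Cauchy criterion in divisibility form. -/
lemma exists_adic_limit' [IsPrecomplete (Ideal.span {ϖ}) S] (f : ℕ → S)
    (hf : ∀ m n : ℕ, m ≤ n → ϖ ^ m ∣ f n - f m) : ∃ L : S, ∀ n : ℕ, ϖ ^ n ∣ L - f n :=
  exists_adic_limit ϖ f fun n => hf n (n + 1) (Nat.le_succ n)

end Criterion

section MvPowerSeries

variable {σ : Type*} {R : Type*} [CommRing R] (ϖ : R)

/-- Divisibility by a constant in `R⟦σ⟧` is coefficientwise divisibility. -/
lemma C_dvd_iff_forall_coeff (r : R) (g : MvPowerSeries σ R) :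
    MvPowerSeries.C (σ := σ) r ∣ g ↔ ∀ d, r ∣ MvPowerSeries.coeff d g := by
  constructor
  · rintro ⟨k, rfl⟩ d
    exact ⟨MvPowerSeries.coeff d k, by rw [MvPowerSeries.coeff_C_mul]⟩
  · intro h
    choose k hk using h
    refine ⟨(show MvPowerSeries σ R from fun d => k d), ?_⟩
    ext d
    rw [MvPowerSeries.coeff_C_mul, MvPowerSeries.coeff_apply]
    exact hk d

/-- `R⟦σ⟧` is `ϖ`-adically complete if `R` is. -/
instance isAdicComplete_mvPowerSeries [IsAdicComplete (Ideal.span {ϖ}) R] :
    IsAdicComplete (Ideal.span {MvPowerSeries.C (σ := σ) ϖ}) (MvPowerSeries σ R) := by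
  refine isAdicComplete_span_singleton_of_dvd _ ?_ ?_
  · intro a ha
    ext d
    rw [map_zero]
    refine eq_zero_of_forall_pow_dvd ϖ _ fun n => ?_
    have := ha n
    rw [← map_pow, C_dvd_iff_forall_coeff] at this
    exact this d
  · intro f hf
    have hcoef : ∀ d, ∃ L : R, ∀ n : ℕ, ϖ ^ n ∣ L - MvPowerSeries.coeff d (f n) := by
      intro d
      refine exists_adic_limit' ϖ (fun n => MvPowerSeries.coeff d (f n)) fun m n hmn => ?_
      have := hf m n hmn
      rw [← map_pow, C_dvd_iff_forall_coeff] at this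
      simpa using this d
    choose L hL using hcoef
    refine ⟨(show MvPowerSeries σ R from fun d => L d), fun n => ?_⟩
    rw [← map_pow, C_dvd_iff_forall_coeff]
    intro d
    rw [map_sub, MvPowerSeries.coeff_apply]
    exact hL d n

/-- The algebra-map form of the previous instance. -/
instance isAdicComplete_mvPowerSeries_algebraMap [IsAdicComplete (Ideal.span {ϖ}) R] :
    IsAdicComplete (Ideal.span {algebraMap R (MvPowerSeries σ R) ϖ}) (MvPowerSeries σ R) :=
  isAdicComplete_mvPowerSeries (σ := σ) ϖ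

end MvPowerSeries

end Fermat.Agent.A2.H408
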