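import Mathlib
import Fermat.Agent.A2.H408.NodeNormalForm
import Fermat.Agent.A2.H408.PowerSeriesAdic

/-!
# A2 (helper408): the node of the plane model of `X₀(q)` from Kronecker's congruence

* `exists_decomposition` : in the complete situation the weak generation hypothesis
  `S = R + x S + y S + ϖ S` implies `S = R + x S + y S`.
* `hgen_of_kronecker` : if `U, V` are coordinates of `S` and `x ≡ U ^ q - V`, `y ≡ U - V ^ q`
  modulo `ϖ`, then `x, y` satisfy the weak generation hypothesis.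
* `exists_kronecker_node` : in `R⟦U, V⟧`, `R` `ϖ`-adically complete: every series
  `x * y - ϖ * h` with `x ≡ U ^ q - V`, `y ≡ U - V ^ q (mod ϖ)` equals `x' * y' - ϖ * c` with
  `c : R` constant, `x' ≡ x`, `y' ≡ y (mod ϖ)`, and `R⟦U, V⟧ = R + x' R⟦U, V⟧ + y' R⟦U, V⟧`.
-/

set_option autoImplicit false

namespace Fermat.Agent.A2.H408

open Ideal

section Abstract

variable {R S : Type*} [CommRing R] [CommRing S] [Algebra R S]
variable (ϖ : R) (x y : S)

/-- Stage `n` of the linear iteration. -/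
structure DecState (ϖ : R) (x y s : S) (n : ℕ) where
  /-- constant -/
  c : R
  /-- coefficient of `x` -/
  a : S
  /-- coefficient of `y` -/
  b : S
  /-- error divided by `ϖ ^ n` -/
  t : S
  eq : s = algebraMap R S c + x * a + y * b + algebraMap R S ϖ ^ n * t

variable (hgen : ∀ s : S, ∃ (c : R) (a b t : S),
    s = algebraMap R S c + x * a + y * b + algebraMap R S ϖ * t)

include hgen in
lemma exists_decState_succ (s : S) (n : ℕ) (σ : DecState ϖ x y s n) :
    ∃ σ' : DecState ϖ x y s (n + 1), ϖ ^ n ∣ σ'.c - σ.c ∧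
      algebraMap R S ϖ ^ n ∣ σ'.a - σ.a ∧ algebraMap R S ϖ ^ n ∣ σ'.b - σ.b := by
  obtain ⟨c', a', b', t, ht⟩ := hgen σ.t
  set p := algebraMap R S ϖ with hp
  refine ⟨⟨σ.c + ϖ ^ n * c', σ.a + p ^ n * a', σ.b + p ^ n * b', t, ?_⟩,
    ⟨c', by ring⟩, ⟨a', by ring⟩, ⟨b', by ring⟩⟩
  have e := σ.eq
  rw [ht] at e
  refine e.trans ?_
  rw [map_add, map_mul, map_pow]
  ring

/-- The sequence of approximations. -/
noncomputable def decSeq (s : S) : (n : ℕ) → DecState ϖ x y s n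
  | 0 => ⟨0, 0, 0, s, by simp⟩
  | n + 1 => (exists_decState_succ ϖ x y hgen s n (decSeq s n)).choose

lemma decSeq_succ_spec (s : S) (n : ℕ) :
    ϖ ^ n ∣ (decSeq ϖ x y hgen s (n + 1)).c - (decSeq ϖ x y hgen s n).c ∧
      algebraMap R S ϖ ^ n ∣ (decSeq ϖ x y hgen s (n + 1)).a - (decSeq ϖ x y hgen s n).a ∧
      algebraMap R S ϖ ^ n ∣ (decSeq ϖ x y hgen s (n + 1)).b - (decSeq ϖ x y hgen s n).b :=
  (exists_decState_succ ϖ x y hgen s n (decSeq ϖ x y hgen s n)).choose_spec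

include hgen in
/-- In the complete situation, generation modulo `ϖ` implies generation. -/
theorem exists_decomposition [IsAdicComplete (Ideal.span {ϖ}) R]
    [IsAdicComplete (Ideal.span {algebraMap R S ϖ}) S] (s : S) :
    ∃ (c : R) (a b : S), s = algebraMap R S c + x * a + y * b := by
  set p := algebraMap R S ϖ with hp
  obtain ⟨c, hc⟩ := exists_adic_limit ϖ (fun n => (decSeq ϖ x y hgen s n).c)
    (fun n => (decSeq_succ_spec ϖ x y hgen s n).1)
  obtain ⟨a, ha⟩ := exists_adic_limit p (fun n => (decSeq ϖ x y hgen s n).a)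
    (fun n => (decSeq_succ_spec ϖ x y hgen s n).2.1)
  obtain ⟨b, hb⟩ := exists_adic_limit p (fun n => (decSeq ϖ x y hgen s n).b)
    (fun n => (decSeq_succ_spec ϖ x y hgen s n).2.2)
  refine ⟨c, a, b, ?_⟩
  rw [← sub_eq_zero]
  refine eq_zero_of_forall_pow_dvd p _ fun n => ?_
  obtain ⟨c', hc'⟩ := hc n
  obtain ⟨a', ha'⟩ := ha n
  obtain ⟨b', hb'⟩ := hb n
  have e := (decSeq ϖ x y hgen s n).eq
  have hc'' : algebraMap R S c =
      algebraMap R S (decSeq ϖ x y hgen s n).c + p ^ n * algebraMap R S c' := by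
    rw [hp, ← map_pow, ← map_mul, ← map_add, ← hc']; congr 1; ring
  have ha'' : a = (decSeq ϖ x y hgen s n).a + p ^ n * a' := by rw [← ha']; ring
  have hb'' : b = (decSeq ϖ x y hgen s n).b + p ^ n * b' := by rw [← hb']; ring
  refine ⟨(decSeq ϖ x y hgen s n).t - algebraMap R S c' - x * a' - y * b', ?_⟩
  rw [hc'', ha'', hb'']
  refine (congrArg (fun z => z - _) e).trans ?_
  ring

/-- Coordinates `x ≡ U ^ q - V`, `y ≡ U - V ^ q (mod ϖ)` generate modulo `ϖ`. -/
theorem hgen_of_kronecker (U V : S) (q : ℕ)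
    (hUV : ∀ s : S, ∃ (c : R) (a b : S), s = algebraMap R S c + U * a + V * b)
    (hU : IsUnit (1 - U ^ (q ^ 2 - 1))) (hq : 1 ≤ q)
    (hx : algebraMap R S ϖ ∣ x - (U ^ q - V)) (hy : algebraMap R S ϖ ∣ y - (U - V ^ q)) :
    ∀ s : S, ∃ (c : R) (a b t : S),
      s = algebraMap R S c + x * a + y * b + algebraMap R S ϖ * t := by
  set p := algebraMap R S ϖ with hp
  set I : Ideal S := Ideal.span {x, y, p} with hI
  have hxI : x ∈ I := Ideal.subset_span (by simp)
  have hyI : y ∈ I := Ideal.subset_span (by simp)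
  have hpI : p ∈ I := Ideal.subset_span (by simp)
  obtain ⟨tx, htx⟩ := hx
  obtain ⟨ty, hty⟩ := hy
  -- `V ≡ U ^ q` and `U ≡ V ^ q` modulo `I`
  have hV : V - U ^ q ∈ I := by
    have : V - U ^ q = - x + p * tx := by rw [← htx]; ring
    rw [this]
    exact I.add_mem (I.neg_mem hxI) (I.mul_mem_right _ hpI)
  have hU' : U - V ^ q ∈ I := by
    have : U - V ^ q = y - p * ty := by rw [← hty]; ring
    rw [this]
    exact I.sub_mem hyI (I.mul_mem_right _ hpI)
  have hVq : V ^ q - (U ^ q) ^ q ∈ I := by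
    obtain ⟨w, hw⟩ := sub_dvd_pow_sub_pow V (U ^ q) q
    rw [hw]
    exact I.mul_mem_right _ hV
  have hUU : U - U ^ (q ^ 2) ∈ I := by
    have : U - U ^ (q ^ 2) = (U - V ^ q) + (V ^ q - (U ^ q) ^ q) := by
      rw [← pow_mul, ← sq]; ring
    rw [this]
    exact I.add_mem hU' hVq
  have hq2 : 1 ≤ q ^ 2 := Nat.one_le_pow _ _ hq
  have hUmem : U ∈ I := by
    have h1 : U * (1 - U ^ (q ^ 2 - 1)) ∈ I := by
      have : U * (1 - U ^ (q ^ 2 - 1)) = U - U ^ (q ^ 2) := by
        have : U ^ (q ^ 2) = U * U ^ (q ^ 2 - 1) := by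
          rw [← pow_succ', Nat.sub_add_cancel hq2]
        rw [this]; ring
      rw [this]; exact hUU
    obtain ⟨u, hu⟩ := hU
    have : U = U * (1 - U ^ (q ^ 2 - 1)) * (↑u⁻¹ : S) := by
      rw [← hu, mul_assoc, Units.mul_inv, mul_one]
    rw [this]
    exact I.mul_mem_right _ h1
  have hVmem : V ∈ I := by
    have : V = (V - U ^ q) + U ^ q := by ring
    rw [this]
    refine I.add_mem hV ?_
    obtain ⟨k, rfl⟩ : ∃ k, q = k + 1 := ⟨q - 1, (Nat.sub_add_cancel hq).symm⟩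
    rw [pow_succ]
    exact I.mul_mem_left _ hUmem
  intro s
  obtain ⟨c, a, b, hs⟩ := hUV s
  have hmem : U * a + V * b ∈ I :=
    I.add_mem (I.mul_mem_right _ hUmem) (I.mul_mem_right _ hVmem)
  rw [hI, Ideal.mem_span_insert] at hmem
  obtain ⟨a', z, hz, e1⟩ := hmem
  rw [Ideal.mem_span_insert] at hz
  obtain ⟨b', z', hz', e2⟩ := hz
  rw [Ideal.mem_span_singleton] at hz'
  obtain ⟨t, rfl⟩ := hz'
  refine ⟨c, a', b', t, ?_⟩
  rw [hs, add_assoc (algebraMap R S c), e1, e2]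
  ring

end Abstract

section Concrete

variable {R : Type*} [CommRing R]

/-- A power series from its coefficient function. -/
def ofCoeff {σ : Type*} (f : (σ →₀ ℕ) → R) : MvPowerSeries σ R := f

@[simp] lemma coeff_ofCoeff {σ : Type*} (f : (σ →₀ ℕ) → R) (d : σ →₀ ℕ) :
    MvPowerSeries.coeff d (ofCoeff f) = f d := rfl

/-- Standard decomposition `s = s(0,0) + U * a + V * b` in `R⟦U, V⟧`. -/
lemma exists_decomposition_XY (s : MvPowerSeries (Fin 2) R) :
    ∃ (c : R) (a b : MvPowerSeries (Fin 2) R),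
      s = algebraMap R (MvPowerSeries (Fin 2) R) c + MvPowerSeries.X 0 * a +
        MvPowerSeries.X 1 * b := by
  classical
  -- the part divisible by `X 0`
  set s₁ : MvPowerSeries (Fin 2) R :=
    ofCoeff (fun d => if d 0 = 0 then 0 else MvPowerSeries.coeff d s) with hs₁
  have h₁ : (MvPowerSeries.X 0 : MvPowerSeries (Fin 2) R) ∣ s₁ := by
    rw [MvPowerSeries.X_dvd_iff]
    intro m hm
    rw [hs₁, coeff_ofCoeff, if_pos hm]
  have h₂ : (MvPowerSeries.X 1 : MvPowerSeries (Fin 2) R) ∣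
      s - s₁ - MvPowerSeries.C (MvPowerSeries.coeff 0 s) := by
    rw [MvPowerSeries.X_dvd_iff]
    intro m hm
    rw [map_sub, map_sub, hs₁, coeff_ofCoeff, MvPowerSeries.coeff_C]
    by_cases h0 : m 0 = 0
    · have hm0 : m = 0 := by
        ext i
        fin_cases i
        · simpa using h0
        · simpa using hm
      rw [if_pos h0, if_pos hm0, hm0]
      simp
    · have hm0 : m ≠ 0 := fun h => h0 (by rw [h]; rfl)
      rw [if_neg h0, if_neg hm0]
      simp
  obtain ⟨a, ha⟩ := h₁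
  obtain ⟨b, hb⟩ := h₂
  refine ⟨MvPowerSeries.coeff 0 s, a, b, ?_⟩
  rw [← ha, ← hb, MvPowerSeries.algebraMap_apply]
  simp only [Algebra.algebraMap_self, RingHom.id_apply]
  ring

/-- **The node from Kronecker's congruence.**  Let `R` be `ϖ`-adically complete, `q ≥ 2`, and let
`x ≡ U ^ q - V`, `y ≡ U - V ^ q (mod ϖ)` in `R⟦U, V⟧`.  Then for every `h` the series
`x * y - ϖ * h` has the form `x' * y' - ϖ * c` with a constant `c : R`, where `x' ≡ x` and
`y' ≡ y (mod ϖ)` and `(x', y')` generate `R⟦U, V⟧` modulo constants. -/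
theorem exists_kronecker_node (ϖ : R) [IsAdicComplete (Ideal.span {ϖ}) R] (q : ℕ) (hq : 2 ≤ q)
    (x y h : MvPowerSeries (Fin 2) R)
    (hx : MvPowerSeries.C ϖ ∣ x - (MvPowerSeries.X 0 ^ q - MvPowerSeries.X 1))
    (hy : MvPowerSeries.C ϖ ∣ y - (MvPowerSeries.X 0 - MvPowerSeries.X 1 ^ q)) :
    ∃ (c : R) (x' y' : MvPowerSeries (Fin 2) R),
      MvPowerSeries.C ϖ ∣ x' - x ∧ MvPowerSeries.C ϖ ∣ y' - y ∧
      x * y - MvPowerSeries.C ϖ * h = x' * y' - MvPowerSeries.C (ϖ * c) ∧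
      ∀ s : MvPowerSeries (Fin 2) R, ∃ (c₀ : R) (a b : MvPowerSeries (Fin 2) R),
        s = MvPowerSeries.C c₀ + x' * a + y' * b := by
  have hq2 : q ^ 2 - 1 ≠ 0 := by
    have : 4 ≤ q ^ 2 := by nlinarith
    omega
  have hunit : IsUnit (1 - (MvPowerSeries.X 0 : MvPowerSeries (Fin 2) R) ^ (q ^ 2 - 1)) := by
    rw [MvPowerSeries.isUnit_iff_constantCoeff]
    simp [hq2]
  have halg : ∀ r : R, algebraMap R (MvPowerSeries (Fin 2) R) r = MvPowerSeries.C r := by
    intro r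
    rw [MvPowerSeries.algebraMap_apply]
    simp
  have hgen := hgen_of_kronecker ϖ x y (MvPowerSeries.X 0) (MvPowerSeries.X 1) q
    exists_decomposition_XY hunit (by omega) (by rw [halg]; exact hx) (by rw [halg]; exact hy)
  obtain ⟨c, a, b, e⟩ := exists_node_normal_form ϖ x y hgen h
  simp only [halg] at e hgen
  refine ⟨c, x - MvPowerSeries.C ϖ * b, y - MvPowerSeries.C ϖ * a, ⟨-b, by ring⟩, ⟨-a, by ring⟩,
    e, ?_⟩
  have hgen' : ∀ s : MvPowerSeries (Fin 2) R, ∃ (c₀ : R) (a₀ b₀ t : MvPowerSeries (Fin 2) R),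
      s = algebraMap R (MvPowerSeries (Fin 2) R) c₀ + (x - MvPowerSeries.C ϖ * b) * a₀ +
        (y - MvPowerSeries.C ϖ * a) * b₀ + algebraMap R (MvPowerSeries (Fin 2) R) ϖ * t := by
    intro s
    obtain ⟨c₀, a₀, b₀, t, hs⟩ := hgen s
    refine ⟨c₀, a₀, b₀, t + b * a₀ + a * b₀, ?_⟩
    rw [halg, halg, hs]
    ring
  intro s
  obtain ⟨c₀, a₀, b₀, hs⟩ := exists_decomposition ϖ _ _ hgen' s
  exact ⟨c₀, a₀, b₀, by rw [hs, halg]⟩

end Concrete

end Fermat.Agent.A2.H408
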