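import Mathlib.RingTheory.Trace.Quotient
import Mathlib.RingTheory.Discriminant
import Mathlib.RingTheory.Ideal.Quotient.Operations

/-!
# A2 / MOD (d5), piece SEP, part 1 (helper408): unit discriminant from two unramified primes

Mathlib-only.  `Λ` a local ring with maximal ideal `𝔪`, `S` a finite free `Λ`-algebra, `P₁ ≠ P₂`
maximal ideals of `S` with `P₁ ⊓ P₂ = 𝔪 S` (the fibre over the closed point is reduced with two
points) and separable residue field extensions.  Then the discriminant of every `Λ`-basis of `S`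
is a unit of `Λ`.

* `mk_discr_eq_discr_basisQuotient` : the discriminant commutes with reduction modulo `𝔪`.
* `traceForm_separatingLeft_of_two_primes` : the trace form of `S / 𝔪 S` is nondegenerate.
* `isUnit_discr_of_two_primes` : the theorem.
-/

set_option autoImplicit false

namespace Fermat.Agent.A2.H408

open IsLocalRing Module

section

variable {Λ S : Type*} [CommRing Λ] [IsLocalRing Λ] [CommRing S] [Algebra Λ S]
  [Module.Free Λ S] [Module.Finite Λ S]

attribute [local instance] Ideal.Quotient.field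

/-- The discriminant commutes with reduction modulo the maximal ideal. -/
theorem mk_discr_eq_discr_basisQuotient {ι : Type*} [Fintype ι] [DecidableEq ι]
    (b : Basis ι Λ S) :
    Ideal.Quotient.mk (maximalIdeal Λ) (Algebra.discr Λ b) =
      Algebra.discr (Λ ⧸ maximalIdeal Λ) (basisQuotient b) := by
  rw [Algebra.discr_def, Algebra.discr_def, RingHom.map_det]
  congr 1
  ext i j
  rw [RingHom.mapMatrix_apply, Matrix.map_apply, Algebra.traceMatrix_apply,
    Algebra.traceMatrix_apply, Algebra.traceForm_apply, Algebra.traceForm_apply,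
    basisQuotient_apply, basisQuotient_apply, ← RingHom.map_mul, Algebra.trace_quotient_mk]

end

section TwoPrimes

variable {Λ S : Type*} [CommRing Λ] [IsLocalRing Λ] [CommRing S] [Algebra Λ S]
  [Module.Free Λ S] [Module.Finite Λ S]
  (P₁ P₂ : Ideal S) [P₁.IsMaximal] [P₂.IsMaximal]
  [P₁.LiesOver (maximalIdeal Λ)] [P₂.LiesOver (maximalIdeal Λ)]
  [Algebra.IsSeparable (Λ ⧸ maximalIdeal Λ) (S ⧸ P₁)]
  [Algebra.IsSeparable (Λ ⧸ maximalIdeal Λ) (S ⧸ P₂)]

attribute [local instance] Ideal.Quotient.field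

omit [Module.Free Λ S] in
/-- The trace form of the closed fibre `S / 𝔪 S ≅ S / P₁ × S / P₂` is nondegenerate. -/
theorem trace_mul_eq_zero_imp_of_two_primes (hne : P₁ ≠ P₂)
    (hinf : P₁ ⊓ P₂ = (maximalIdeal Λ).map (algebraMap Λ S))
    (y : S ⧸ (maximalIdeal Λ).map (algebraMap Λ S))
    (hy : ∀ z, Algebra.trace (Λ ⧸ maximalIdeal Λ) (S ⧸ (maximalIdeal Λ).map (algebraMap Λ S))
      (y * z) = 0) : y = 0 := by
  have hcop : IsCoprime P₁ P₂ :=
    Ideal.isCoprime_iff_sup_eq.mpr (Ideal.IsMaximal.coprime_of_ne ‹_› ‹_› hne)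
  let e₀ : (S ⧸ (maximalIdeal Λ).map (algebraMap Λ S)) ≃+* (S ⧸ P₁) × (S ⧸ P₂) :=
    (Ideal.quotEquivOfEq hinf.symm).trans (Ideal.quotientInfEquivQuotientProd P₁ P₂ hcop)
  let e : (S ⧸ (maximalIdeal Λ).map (algebraMap Λ S)) ≃ₐ[Λ ⧸ maximalIdeal Λ]
      (S ⧸ P₁) × (S ⧸ P₂) :=
    { e₀ with commutes' := Quotient.ind fun _ => rfl }
  have hfin₁ : Module.Finite (Λ ⧸ maximalIdeal Λ) (S ⧸ P₁) :=
    Module.Finite.of_restrictScalars_finite Λ _ _
  have hfin₂ : Module.Finite (Λ ⧸ maximalIdeal Λ) (S ⧸ P₂) :=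
    Module.Finite.of_restrictScalars_finite Λ _ _
  have key : ∀ z : (S ⧸ P₁) × (S ⧸ P₂),
      Algebra.trace (Λ ⧸ maximalIdeal Λ) (S ⧸ P₁) ((e y).1 * z.1) +
        Algebra.trace (Λ ⧸ maximalIdeal Λ) (S ⧸ P₂) ((e y).2 * z.2) = 0 := by
    intro z
    have h := hy (e.symm z)
    rw [← Algebra.trace_eq_of_algEquiv e, map_mul, e.apply_symm_apply,
      Algebra.trace_prod_apply] at h
    exact h
  have h1 : (e y).1 = 0 := by
    refine (traceForm_nondegenerate (Λ ⧸ maximalIdeal Λ) (S ⧸ P₁)).1 _ fun z₁ => ?_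
    have := key (z₁, 0)
    simpa using this
  have h2 : (e y).2 = 0 := by
    refine (traceForm_nondegenerate (Λ ⧸ maximalIdeal Λ) (S ⧸ P₂)).1 _ fun z₂ => ?_
    have := key (0, z₂)
    simpa using this
  apply e.injective
  rw [map_zero]
  exact Prod.ext h1 h2

/-- **Unit discriminant.**  If the closed fibre of the finite free `Λ`-algebra `S` consists of two
reduced points with separable residue fields, every `Λ`-basis of `S` has unit discriminant. -/
theorem isUnit_discr_of_two_primes (hne : P₁ ≠ P₂)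
    (hinf : P₁ ⊓ P₂ = (maximalIdeal Λ).map (algebraMap Λ S))
    {ι : Type*} [Fintype ι] [DecidableEq ι] (b : Basis ι Λ S) :
    IsUnit (Algebra.discr Λ b) := by
  by_contra hnu
  have hmem : Algebra.discr Λ b ∈ maximalIdeal Λ := (mem_maximalIdeal _).mpr hnu
  have h0 : Algebra.discr (Λ ⧸ maximalIdeal Λ) (basisQuotient b) = 0 := by
    rw [← mk_discr_eq_discr_basisQuotient]
    exact Ideal.Quotient.eq_zero_iff_mem.mpr hmem
  have : Module.Finite (Λ ⧸ maximalIdeal Λ) (S ⧸ (maximalIdeal Λ).map (algebraMap Λ S)) :=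
    Module.Finite.of_restrictScalars_finite Λ _ _
  have hsep : (Algebra.traceForm (Λ ⧸ maximalIdeal Λ)
      (S ⧸ (maximalIdeal Λ).map (algebraMap Λ S))).SeparatingLeft := by
    intro y hy
    exact trace_mul_eq_zero_imp_of_two_primes P₁ P₂ hne hinf y hy
  have hnd : (Algebra.traceForm (Λ ⧸ maximalIdeal Λ)
      (S ⧸ (maximalIdeal Λ).map (algebraMap Λ S))).Nondegenerate :=
    LinearMap.BilinForm.Nondegenerate.ofSeparatingLeft hsep
  have := (LinearMap.BilinForm.nondegenerate_iff_det_ne_zero (basisQuotient b)).mp hnd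
  rw [← Algebra.traceMatrix_of_basis, ← Algebra.discr_def] at this
  exact this h0

end TwoPrimes

end Fermat.Agent.A2.H408
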