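import Mathlib.RingTheory.Localization.Integral
import Mathlib.RingTheory.Localization.NormTrace
import Mathlib.RingTheory.Localization.AtPrime.Basic
import Mathlib.RingTheory.Localization.Ideal
import Mathlib.RingTheory.DiscreteValuationRing.TFAE
import Mathlib.RingTheory.DedekindDomain.IntegralClosure
import Mathlib.RingTheory.Ideal.GoingUp
import Mathlib.FieldTheory.SeparableDegree
import Fermat.Agent.A2.H408.SepDiscr

/-!
# A2 / MOD (d5), piece SEP, part 2 (helper408): separating coordinate, localisation layer

Mathlib-only.  `A` a noetherian integrally closed domain with fraction field `K`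
(application: `A = R[x]`, `R` a discrete valuation ring), `π ∈ A` a prime element (`π = w`),
`F / K` a finite separable extension, `B` the integral closure of `A` in `F`, `p₁ ≠ p₂` primes of
`B` with `p₁ ⊓ p₂ = π B` (reduced special fibre with two components), such that
`p_i ∩ A = π A` and every `b ∈ B` is a simple root modulo `p_i` of a polynomial over `A`
(the function fields of the components are separable over the function field of `A / π`).

Then there is a `K`-basis of `F` consisting of elements of `B` whose discriminant is (the image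
of) an element of `A` not divisible by `π`:  `exists_basis_discr_not_dvd`.
-/

set_option autoImplicit false
set_option linter.unusedSectionVars false
set_option linter.style.haveILetI false

namespace Fermat.Agent.A2.H408

open IsLocalRing Module Polynomial

section SimpleRoot

variable {κ L : Type*} [Field κ] [Field L] [Algebra κ L]

/-- A simple root of a polynomial over a field is separable over that field. -/
theorem isSeparable_of_simple_root {y : L} {G : κ[X]} (h0 : aeval y G = 0)
    (h1 : aeval y (derivative G) ≠ 0) : IsSeparable κ y := by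
  have hG : G ≠ 0 := by
    rintro rfl
    simp at h1
  have hint : IsIntegral κ y := (isAlgebraic_iff_isIntegral).mp ⟨G, hG, h0⟩
  obtain ⟨H, hH⟩ := minpoly.dvd κ y h0
  have hd : aeval y (derivative (minpoly κ y)) ≠ 0 := by
    intro h
    apply h1
    rw [hH, derivative_mul, map_add, map_mul, map_mul, h, minpoly.aeval]
    ring
  have hne : derivative (minpoly κ y) ≠ 0 := by
    intro h
    apply hd
    rw [h, map_zero]
  exact (separable_iff_derivative_ne_zero (minpoly.irreducible hint)).mpr hne

/-- The same for commutative rings which are fields (no `Field` instances: convenient for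
quotient rings), together with multiplication by a constant. -/
theorem isSeparable_mul_algebraMap_of_simple_root {κ L : Type*} [CommRing κ] [CommRing L]
    [Algebra κ L] (hκ : IsField κ) (hL : IsField L) {y : L} {G : κ[X]} (h0 : aeval y G = 0)
    (h1 : aeval y (derivative G) ≠ 0) (c : κ) : IsSeparable κ (y * algebraMap κ L c) := by
  let _ := hκ.toField
  let _ := hL.toField
  exact Field.isSeparable_mul (isSeparable_of_simple_root h0 h1) (isSeparable_algebraMap c)

end SimpleRoot

namespace SepLoc

/-! ### The discrete valuation ring `Λ = A_(π)` and its algebra structures -/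

section Lam

variable (A : Type*) [CommRing A] [IsDomain A] (π : A) [hπ : Fact (Prime π)]

/-- `(π)` is a prime ideal. -/
instance isPrime_span : (Ideal.span {π} : Ideal A).IsPrime :=
  (Ideal.span_singleton_prime hπ.out.ne_zero).mpr hπ.out

/-- `Λ = A_(π)`. -/
abbrev Lam : Type _ := Localization.AtPrime (Ideal.span {π} : Ideal A)

variable {A π}

omit [IsDomain A] in
theorem notMem_span_iff {d : A} : d ∈ (Ideal.span {π} : Ideal A).primeCompl ↔ ¬ π ∣ d := by
  rw [Ideal.mem_primeCompl_iff, Ideal.mem_span_singleton]

variable (A π)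

omit [IsDomain A] in
theorem maximalIdeal_lam :
    maximalIdeal (Lam A π) = Ideal.span {algebraMap A (Lam A π) π} := by
  rw [← IsLocalization.AtPrime.map_eq_maximalIdeal (Ideal.span {π} : Ideal A) (Lam A π),
    Ideal.map_span, Set.image_singleton]

theorem algebraMap_lam_ne_zero : algebraMap A (Lam A π) π ≠ 0 := by
  intro h
  have hinj : Function.Injective (algebraMap A (Lam A π)) :=
    IsLocalization.injective (Lam A π) (Ideal.span {π} : Ideal A).primeCompl_le_nonZeroDivisors
  exact hπ.out.ne_zero (hinj (h.trans (map_zero _).symm))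

/-- `Λ = A_(π)` is a discrete valuation ring. -/
theorem isDiscreteValuationRing_lam [IsNoetherianRing A] : IsDiscreteValuationRing (Lam A π) := by
  have hnoeth : IsNoetherianRing (Lam A π) :=
    IsLocalization.isNoetherianRing (Ideal.span {π} : Ideal A).primeCompl (Lam A π) inferInstance
  have hnf : ¬ IsField (Lam A π) := by
    rw [IsLocalRing.isField_iff_maximalIdeal_eq, maximalIdeal_lam, Ideal.span_singleton_eq_bot]
    exact algebraMap_lam_ne_zero A π
  refine ((IsDiscreteValuationRing.TFAE (Lam A π) hnf).out 0 4).mpr ?_
  rw [maximalIdeal_lam]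
  exact ⟨⟨_, rfl⟩⟩

end Lam

section Alg

variable (A : Type*) [CommRing A] [IsDomain A] (π : A) [hπ : Fact (Prime π)]
variable (L : Type*) [Field L] [Algebra A L] [FaithfulSMul A L]

theorem isUnit_algebraMap_of_mem_primeCompl (y : (Ideal.span {π} : Ideal A).primeCompl) :
    IsUnit (algebraMap A L y) := by
  refine IsUnit.mk0 _ ?_
  rw [Ne, map_eq_zero_iff _ (FaithfulSMul.algebraMap_injective A L)]
  rintro h
  have := y.2
  rw [h] at this
  exact this (Ideal.zero_mem _)

/-- The canonical map `Λ = A_(π) → L` into a field containing `A`. -/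
noncomputable def lamTo : Lam A π →+* L :=
  IsLocalization.lift (M := (Ideal.span {π} : Ideal A).primeCompl) (g := algebraMap A L)
    (isUnit_algebraMap_of_mem_primeCompl A π L)

/-- The algebra structure `Λ → L`. -/
@[reducible] noncomputable def algLam : Algebra (Lam A π) L := (lamTo A π L).toAlgebra

attribute [local instance] algLam

theorem algebraMap_lam_eq : algebraMap (Lam A π) L = lamTo A π L := rfl

instance isScalarTower_lam : IsScalarTower A (Lam A π) L :=
  IsScalarTower.of_algebraMap_eq fun x => by
    rw [algebraMap_lam_eq, lamTo, IsLocalization.lift_eq]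

theorem isIntegral_lam_of_isIntegral {f : L} (hf : IsIntegral A f) : IsIntegral (Lam A π) f :=
  hf.tower_top

/-- The inclusion of the integral closure of `A` into the integral closure of `Λ`. -/
noncomputable def icMap : integralClosure A L →+* integralClosure (Lam A π) L where
  toFun b := ⟨b.1, isIntegral_lam_of_isIntegral A π L b.2⟩
  map_one' := rfl
  map_mul' _ _ := rfl
  map_zero' := rfl
  map_add' _ _ := rfl

/-- The algebra structure `B → S` between the integral closures. -/
@[reducible] noncomputable def algIc : Algebra (integralClosure A L) (integralClosure (Lam A π) L) :=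
  (icMap A π L).toAlgebra

attribute [local instance] algIc

theorem coe_algebraMap_ic (b : integralClosure A L) :
    ((algebraMap (integralClosure A L) (integralClosure (Lam A π) L) b :
      integralClosure (Lam A π) L) : L) = (b : L) := rfl

instance isScalarTower_ic : IsScalarTower (integralClosure A L) (integralClosure (Lam A π) L) L :=
  IsScalarTower.of_algebraMap_eq fun _ => rfl

instance isScalarTower_ic' : IsScalarTower A (integralClosure A L) (integralClosure (Lam A π) L) :=
  IsScalarTower.of_algebraMap_eq fun _ => rfl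

theorem algebraMap_lam_ic (a : A) :
    algebraMap (Lam A π) (integralClosure (Lam A π) L) (algebraMap A (Lam A π) a) =
      algebraMap (integralClosure A L) (integralClosure (Lam A π) L)
        (algebraMap A (integralClosure A L) a) := by
  apply Subtype.ext
  change algebraMap (Lam A π) L (algebraMap A (Lam A π) a) = algebraMap A L a
  rw [← IsScalarTower.algebraMap_apply]

/-- `L` is the localisation of itself at the image of `A ∖ (π)`. -/
instance isLocalization_self :
    IsLocalization (Algebra.algebraMapSubmonoid L (Ideal.span {π} : Ideal A).primeCompl) L :=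
  IsLocalization.of_le_isUnit (by
    rintro _ ⟨y, hy, rfl⟩
    exact isUnit_algebraMap_of_mem_primeCompl A π L ⟨y, hy⟩)

/-- The integral closure of `Λ` is the localisation of the integral closure of `A`. -/
instance isLocalization_ic :
    IsLocalization
      (Algebra.algebraMapSubmonoid (integralClosure A L) (Ideal.span {π} : Ideal A).primeCompl)
      (integralClosure (Lam A π) L) :=
  IsLocalization.integralClosure (R := A) (S := L) (Rf := Lam A π) (Sf := L)
    (Ideal.span {π} : Ideal A).primeCompl

end Alg

end SepLoc

section Main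

open SepLoc

theorem faithfulSMul_of_tower (A K F : Type*) [CommRing A] [IsDomain A] [Field K] [Field F]
    [Algebra A K] [IsFractionRing A K] [Algebra K F] [Algebra A F] [IsScalarTower A K F] :
    FaithfulSMul A F := by
  rw [faithfulSMul_iff_algebraMap_injective, IsScalarTower.algebraMap_eq A K F]
  exact (algebraMap K F).injective.comp (IsFractionRing.injective A K)

attribute [local instance] SepLoc.algLam SepLoc.algIc

variable {A : Type*} [CommRing A] [IsDomain A] [IsNoetherianRing A] [IsIntegrallyClosed A]
variable {K F : Type*} [Field K] [Field F] [Algebra A K] [IsFractionRing A K]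
  [Algebra K F] [Algebra A F] [IsScalarTower A K F] [FiniteDimensional K F]
  [Algebra.IsSeparable K F]


set_option maxHeartbeats 400000 in
/-- Separability of the residue field of a prime of `S = IC(Λ)` from simple roots in `B`. -/
theorem isSeparable_quotient_of_simple_roots {π : A} [hπ : Fact (Prime π)] [FaithfulSMul A F]
    (P : Ideal (integralClosure (Lam A π) F)) [P.IsMaximal]
    [P.LiesOver (maximalIdeal (Lam A π))]
    (p : Ideal (integralClosure A F))
    (hc : Ideal.comap (algebraMap (integralClosure A F) (integralClosure (Lam A π) F)) P = p)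
    (hsep : ∀ b : integralClosure A F, ∃ G : A[X],
      aeval b G ∈ p ∧ aeval b (derivative G) ∉ p) :
    Algebra.IsSeparable (Lam A π ⧸ maximalIdeal (Lam A π)) (integralClosure (Lam A π) F ⧸ P) := by
  have hloc : IsLocalization
      (Algebra.algebraMapSubmonoid (integralClosure A F) (Ideal.span {π} : Ideal A).primeCompl)
      (integralClosure (Lam A π) F) := isLocalization_ic A π F
  -- the two ring homomorphisms
  let ψ : A →+* (Lam A π ⧸ maximalIdeal (Lam A π)) :=
    (Ideal.Quotient.mk (maximalIdeal (Lam A π))).comp (algebraMap A (Lam A π))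
  let χ : integralClosure A F →+* (integralClosure (Lam A π) F ⧸ P) :=
    (Ideal.Quotient.mk P).comp (algebraMap (integralClosure A F) (integralClosure (Lam A π) F))
  have hcomp : (algebraMap (Lam A π ⧸ maximalIdeal (Lam A π))
      (integralClosure (Lam A π) F ⧸ P)).comp ψ = χ.comp (algebraMap A (integralClosure A F)) := by
    ext a
    simp only [RingHom.comp_apply, ψ, χ]
    rw [Ideal.Quotient.algebraMap_mk_of_liesOver]
    congr 1
    apply Subtype.ext
    change algebraMap (Lam A π) F (algebraMap A (Lam A π) a) = algebraMap A F a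
    rw [← IsScalarTower.algebraMap_apply]
  have hκ : IsField (Lam A π ⧸ maximalIdeal (Lam A π)) :=
    (Ideal.Quotient.maximal_ideal_iff_isField_quotient _).mp inferInstance
  have hL : IsField (integralClosure (Lam A π) F ⧸ P) :=
    (Ideal.Quotient.maximal_ideal_iff_isField_quotient _).mp inferInstance
  have hχ0 : ∀ b : integralClosure A F, χ b = 0 ↔ b ∈ p := by
    intro b
    rw [← hc]
    exact Ideal.Quotient.eq_zero_iff_mem
  have haev : ∀ (G : A[X]) (b : integralClosure A F),
      aeval (χ b) (G.map ψ) = χ (aeval b G) := by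
    intro G b
    rw [aeval_def, eval₂_map, hcomp, aeval_def, hom_eval₂]
  refine ⟨fun z => ?_⟩
  obtain ⟨s, rfl⟩ := Ideal.Quotient.mk_surjective z
  obtain ⟨⟨b, m⟩, hs⟩ := IsLocalization.surj
    (Algebra.algebraMapSubmonoid (integralClosure A F) (Ideal.span {π} : Ideal A).primeCompl) s
  obtain ⟨d, hd, hdm⟩ := m.2
  simp only at hs
  rw [← hdm] at hs
  have hu : ψ d ≠ 0 := by
    change Ideal.Quotient.mk (maximalIdeal (Lam A π)) (algebraMap A (Lam A π) d) ≠ 0
    rw [Ne, Ideal.Quotient.eq_zero_iff_mem, IsLocalRing.mem_maximalIdeal, mem_nonunits_iff,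
      not_not]
    exact IsLocalization.map_units (Lam A π) (⟨d, hd⟩ : (Ideal.span {π} : Ideal A).primeCompl)
  obtain ⟨c, hc'⟩ := hκ.mul_inv_cancel hu
  have hz : Ideal.Quotient.mk P s =
      χ b * algebraMap (Lam A π ⧸ maximalIdeal (Lam A π)) (integralClosure (Lam A π) F ⧸ P)
        c := by
    have h1 : Ideal.Quotient.mk P s * algebraMap (Lam A π ⧸ maximalIdeal (Lam A π))
        (integralClosure (Lam A π) F ⧸ P) (ψ d) = χ b := by
      have h2 := congrArg (Ideal.Quotient.mk P) hs
      rw [map_mul] at h2
      have h3 := congrFun (congrArg DFunLike.coe hcomp) d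
      simp only [RingHom.comp_apply] at h3
      rw [h3]
      exact h2
    rw [← h1, mul_assoc, ← map_mul, hc', map_one, mul_one]
  rw [hz]
  obtain ⟨G, h0, h1⟩ := hsep b
  have e0 : aeval (χ b) (G.map ψ) = 0 := by
    rw [haev, hχ0]
    exact h0
  have e1 : aeval (χ b) (derivative (G.map ψ)) ≠ 0 := by
    rw [derivative_map, haev, Ne, hχ0]
    exact h1
  have key := @isSeparable_mul_algebraMap_of_simple_root (Lam A π ⧸ maximalIdeal (Lam A π))
    (integralClosure (Lam A π) F ⧸ P) _ _ _ hκ hL (χ b) (G.map ψ)
  exact key e0 e1 c

set_option maxHeartbeats 400000 in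
/-- the unit-discriminant statement over `Λ = A_(π)` -/
theorem isUnit_discr_lam {π : A} [hπ : Fact (Prime π)] [FaithfulSMul A F]
    (p₁ p₂ : Ideal (integralClosure A F)) (hp₁ : p₁.IsPrime) (hp₂ : p₂.IsPrime) (hne : p₁ ≠ p₂)
    (hinf : p₁ ⊓ p₂ = Ideal.span {algebraMap A (integralClosure A F) π})
    (htr₁ : ∀ d : A, algebraMap A (integralClosure A F) d ∈ p₁ → π ∣ d)
    (htr₂ : ∀ d : A, algebraMap A (integralClosure A F) d ∈ p₂ → π ∣ d)
    (hsep₁ : ∀ b : integralClosure A F, ∃ G : A[X],
      aeval b G ∈ p₁ ∧ aeval b (derivative G) ∉ p₁)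
    (hsep₂ : ∀ b : integralClosure A F, ∃ G : A[X],
      aeval b G ∈ p₂ ∧ aeval b (derivative G) ∉ p₂)
    [Module.Free (Lam A π) (integralClosure (Lam A π) F)]
    [Module.Finite (Lam A π) (integralClosure (Lam A π) F)]
    {ι : Type*} [Fintype ι] [DecidableEq ι]
    (b : Basis ι (Lam A π) (integralClosure (Lam A π) F)) :
    IsUnit (Algebra.discr (Lam A π) b) := by
  classical
  have hloc : IsLocalization
      (Algebra.algebraMapSubmonoid (integralClosure A F) (Ideal.span {π} : Ideal A).primeCompl)
      (integralClosure (Lam A π) F) := isLocalization_ic A π F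
  -- disjointness
  have hdisj : ∀ (p : Ideal (integralClosure A F)),
      (∀ d : A, algebraMap A (integralClosure A F) d ∈ p → π ∣ d) →
      Disjoint ((Algebra.algebraMapSubmonoid (integralClosure A F)
        (Ideal.span {π} : Ideal A).primeCompl : Submonoid (integralClosure A F)) :
          Set (integralClosure A F)) (p : Set (integralClosure A F)) := by
    intro p htr
    rw [Set.disjoint_left]
    rintro _ ⟨d, hd, rfl⟩ hmem
    exact (notMem_span_iff.mp hd) (htr d hmem)
  have hd₁ := hdisj p₁ htr₁
  have hd₂ := hdisj p₂ htr₂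
  -- the two primes of `S`
  have hP₁prime : (Ideal.map (algebraMap (integralClosure A F) (integralClosure (Lam A π) F))
      p₁).IsPrime := IsLocalization.isPrime_of_isPrime_disjoint _ _ p₁ hp₁ hd₁
  have hP₂prime : (Ideal.map (algebraMap (integralClosure A F) (integralClosure (Lam A π) F))
      p₂).IsPrime := IsLocalization.isPrime_of_isPrime_disjoint _ _ p₂ hp₂ hd₂
  have hc₁ : Ideal.comap (algebraMap (integralClosure A F) (integralClosure (Lam A π) F))
      (Ideal.map (algebraMap (integralClosure A F) (integralClosure (Lam A π) F)) p₁) = p₁ :=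
    IsLocalization.under_map_of_isPrime_disjoint _ _ hp₁ hd₁
  have hc₂ : Ideal.comap (algebraMap (integralClosure A F) (integralClosure (Lam A π) F))
      (Ideal.map (algebraMap (integralClosure A F) (integralClosure (Lam A π) F)) p₂) = p₂ :=
    IsLocalization.under_map_of_isPrime_disjoint _ _ hp₂ hd₂
  generalize hP₁ : Ideal.map (algebraMap (integralClosure A F) (integralClosure (Lam A π) F))
      p₁ = P₁ at hP₁prime hc₁
  generalize hP₂ : Ideal.map (algebraMap (integralClosure A F) (integralClosure (Lam A π) F))
      p₂ = P₂ at hP₂prime hc₂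
  have hPne : P₁ ≠ P₂ := by
    intro h
    apply hne
    rw [← hc₁, ← hc₂, h]
  have hPinf : P₁ ⊓ P₂ = (maximalIdeal (Lam A π)).map
      (algebraMap (Lam A π) (integralClosure (Lam A π) F)) := by
    rw [← hP₁, ← hP₂, ← IsLocalization.map_inf (Algebra.algebraMapSubmonoid (integralClosure A F)
      (Ideal.span {π} : Ideal A).primeCompl) (integralClosure (Lam A π) F), hinf, Ideal.map_span,
      Set.image_singleton, maximalIdeal_lam, Ideal.map_span, Set.image_singleton]
    congr 2
    apply Subtype.ext
    change algebraMap A F π = algebraMap (Lam A π) F (algebraMap A (Lam A π) π)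
    rw [← IsScalarTower.algebraMap_apply]
  -- `P_i` lies over the maximal ideal of `Λ` and is maximal
  have hover : ∀ P : Ideal (integralClosure (Lam A π) F), P.IsPrime →
      (maximalIdeal (Lam A π)).map (algebraMap (Lam A π) (integralClosure (Lam A π) F)) ≤ P →
      P.LiesOver (maximalIdeal (Lam A π)) := by
    intro P hP hle
    refine ⟨le_antisymm (Ideal.map_le_iff_le_comap.mp hle) ?_⟩
    exact IsLocalRing.le_maximalIdeal (Ideal.IsPrime.ne_top (Ideal.comap_isPrime _ P))
  have hover₁ : P₁.LiesOver (maximalIdeal (Lam A π)) :=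
    hover P₁ hP₁prime (hPinf ▸ inf_le_left)
  have hover₂ : P₂.LiesOver (maximalIdeal (Lam A π)) :=
    hover P₂ hP₂prime (hPinf ▸ inf_le_right)
  have hmax : ∀ P : Ideal (integralClosure (Lam A π) F), P.IsPrime →
      P.LiesOver (maximalIdeal (Lam A π)) → P.IsMaximal := by
    intro P hP hL
    refine Ideal.isMaximal_of_isIntegral_of_isMaximal_comap (R := Lam A π) P ?_
    have h : Ideal.comap (algebraMap (Lam A π) (integralClosure (Lam A π) F)) P =
        maximalIdeal (Lam A π) := hL.over.symm
    rw [h]
    infer_instance
  have hmax₁ : P₁.IsMaximal := hmax P₁ hP₁prime hover₁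
  have hmax₂ : P₂.IsMaximal := hmax P₂ hP₂prime hover₂
  have hs₁ : Algebra.IsSeparable (Lam A π ⧸ maximalIdeal (Lam A π))
      (integralClosure (Lam A π) F ⧸ P₁) :=
    isSeparable_quotient_of_simple_roots P₁ p₁ hc₁ hsep₁
  have hs₂ : Algebra.IsSeparable (Lam A π ⧸ maximalIdeal (Lam A π))
      (integralClosure (Lam A π) F ⧸ P₂) :=
    isSeparable_quotient_of_simple_roots P₂ p₂ hc₂ hsep₂
  exact @isUnit_discr_of_two_primes (Lam A π) (integralClosure (Lam A π) F) _ _ _ _ _ _
    P₁ P₂ hmax₁ hmax₂ hover₁ hover₂ hs₁ hs₂ hPne hPinf ι _ _ b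

set_option maxHeartbeats 400000 in
/-- **Separating coordinate, localisation layer.**  In the situation of the header there is a
`K`-basis of `F` consisting of elements integral over `A` whose discriminant is the image of an
element of `A` which is not divisible by `π`. -/
theorem exists_basis_discr_not_dvd {π : A} (hπ : Prime π)
    (p₁ p₂ : Ideal (integralClosure A F)) (hp₁ : p₁.IsPrime) (hp₂ : p₂.IsPrime) (hne : p₁ ≠ p₂)
    (hinf : p₁ ⊓ p₂ = Ideal.span {algebraMap A (integralClosure A F) π})
    (htr₁ : ∀ d : A, algebraMap A (integralClosure A F) d ∈ p₁ → π ∣ d)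
    (htr₂ : ∀ d : A, algebraMap A (integralClosure A F) d ∈ p₂ → π ∣ d)
    (hsep₁ : ∀ b : integralClosure A F, ∃ G : A[X],
      aeval b G ∈ p₁ ∧ aeval b (derivative G) ∉ p₁)
    (hsep₂ : ∀ b : integralClosure A F, ∃ G : A[X],
      aeval b G ∈ p₂ ∧ aeval b (derivative G) ∉ p₂) :
    ∃ b : Fin (Module.finrank K F) → F, (∀ i, IsIntegral A (b i)) ∧ LinearIndependent K b ∧
      ∃ d : A, ¬ π ∣ d ∧ algebraMap A K d = Algebra.discr K b := by
  classical
  haveI : Fact (Prime π) := ⟨hπ⟩
  haveI : FaithfulSMul A F := faithfulSMul_of_tower A K F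
  haveI : FaithfulSMul A K := (faithfulSMul_iff_algebraMap_injective A K).mpr
    (IsFractionRing.injective A K)
  haveI hdvr : IsDiscreteValuationRing (Lam A π) := isDiscreteValuationRing_lam A π
  haveI htower : IsScalarTower (Lam A π) K F := by
    refine IsScalarTower.of_algebraMap_eq' ?_
    refine IsLocalization.ringHom_ext (Ideal.span {π} : Ideal A).primeCompl ?_
    ext a
    simp only [RingHom.comp_apply]
    rw [← IsScalarTower.algebraMap_apply A (Lam A π) F, ← IsScalarTower.algebraMap_apply A (Lam A π) K,
      ← IsScalarTower.algebraMap_apply A K F]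
  haveI hfrac : IsFractionRing (Lam A π) K :=
    IsFractionRing.isFractionRing_of_isDomain_of_isLocalization
      (Ideal.span {π} : Ideal A).primeCompl (Lam A π) K
  haveI hfin : Module.Finite (Lam A π) (integralClosure (Lam A π) F) :=
    IsIntegralClosure.finite (Lam A π) K F _
  haveI : FaithfulSMul (Lam A π) F := faithfulSMul_of_tower (Lam A π) K F
  haveI hfree : Module.Free (Lam A π) (integralClosure (Lam A π) F) :=
    Module.free_of_finite_type_torsion_free'
  haveI hlocF : IsLocalization
      (Algebra.algebraMapSubmonoid (integralClosure (Lam A π) F) (nonZeroDivisors (Lam A π))) F :=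
    IsIntegralClosure.isLocalization (Lam A π) K F (integralClosure (Lam A π) F)
  have hloc : IsLocalization
      (Algebra.algebraMapSubmonoid (integralClosure A F) (Ideal.span {π} : Ideal A).primeCompl)
      (integralClosure (Lam A π) F) := isLocalization_ic A π F
  -- a basis of `S` over `Λ`, rescaled to lie in `B`
  let b₀ := Module.Free.chooseBasis (Lam A π) (integralClosure (Lam A π) F)
  have hsc : ∀ i, ∃ (u : (Lam A π)ˣ) (β : integralClosure A F),
      u • b₀ i = algebraMap (integralClosure A F) (integralClosure (Lam A π) F) β := by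
    intro i
    obtain ⟨⟨β, m⟩, hs⟩ := IsLocalization.surj
      (Algebra.algebraMapSubmonoid (integralClosure A F) (Ideal.span {π} : Ideal A).primeCompl)
      (b₀ i)
    obtain ⟨d, hd, hdm⟩ := m.2
    simp only at hs
    rw [← hdm] at hs
    have hu : IsUnit (algebraMap A (Lam A π) d) :=
      IsLocalization.map_units (Lam A π) (⟨d, hd⟩ : (Ideal.span {π} : Ideal A).primeCompl)
    refine ⟨hu.unit, β, ?_⟩
    rw [← hs, Units.smul_def, IsUnit.unit_spec, Algebra.smul_def, mul_comm, algebraMap_lam_ic]
  choose u β hβ using hsc
  let b₁ := b₀.unitsSMul u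
  have hb₁ : ∀ i, b₁ i = algebraMap (integralClosure A F) (integralClosure (Lam A π) F) (β i) := by
    intro i
    rw [← hβ i]
    exact Basis.unitsSMul_apply i
  have hunit : IsUnit (Algebra.discr (Lam A π) b₁) :=
    isUnit_discr_lam p₁ p₂ hp₁ hp₂ hne hinf htr₁ htr₂ hsep₁ hsep₂ b₁
  -- the induced `K`-basis of `F`
  let bK := b₁.localizationLocalization K (nonZeroDivisors (Lam A π)) F
  have hbK : ∀ i, bK i = ((β i : integralClosure A F) : F) := by
    intro i
    rw [Basis.localizationLocalization_apply, hb₁]
    rfl
  have hdiscr : Algebra.discr K bK = algebraMap (Lam A π) K (Algebra.discr (Lam A π) b₁) :=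
    Algebra.discr_localizationLocalization (Lam A π) (nonZeroDivisors (Lam A π)) F b₁
  have hcard : Fintype.card (Module.Free.ChooseBasisIndex (Lam A π)
      (integralClosure (Lam A π) F)) = Module.finrank K F :=
    (Module.finrank_eq_card_basis bK).symm
  let e := Fintype.equivFinOfCardEq hcard
  have hint : ∀ i, IsIntegral A ((bK ∘ e.symm) i) := by
    intro i
    rw [Function.comp_apply, hbK]
    exact (β _).2
  refine ⟨bK ∘ e.symm, hint, ?_, ?_⟩
  · have := (bK.reindex e).linearIndependent
    rwa [Basis.coe_reindex] at this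
  · have hI : IsIntegral A (Algebra.discr K (bK ∘ e.symm)) := Algebra.discr_isIntegral K hint
    obtain ⟨d, hd⟩ := IsIntegrallyClosed.isIntegral_iff.mp hI
    refine ⟨d, ?_, hd⟩
    intro hdvd
    have h1 : Algebra.discr K (bK ∘ e.symm) = Algebra.discr K bK := Algebra.discr_reindex K bK e
    have h2 : algebraMap (Lam A π) K (algebraMap A (Lam A π) d) =
        algebraMap (Lam A π) K (Algebra.discr (Lam A π) b₁) := by
      rw [← IsScalarTower.algebraMap_apply, hd, h1, hdiscr]
    have h3 := IsFractionRing.injective (Lam A π) K h2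
    have hmem : algebraMap A (Lam A π) d ∈ maximalIdeal (Lam A π) := by
      rw [maximalIdeal_lam]
      obtain ⟨c, rfl⟩ := hdvd
      rw [map_mul]
      exact Ideal.mul_mem_right _ _ (Ideal.subset_span rfl)
    rw [h3] at hmem
    exact (IsLocalRing.mem_maximalIdeal _).mp hmem hunit

end Main

end Fermat.Agent.A2.H408
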