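import Fermat.Agent.A2.Spec
import Fermat.Agent.A2.H408.SepLoc

/-!
# A2 / MOD S4 (helper408): `Spec.SepCoord` from two cuts — wrapper at `A = R[X]`

`R` a discrete valuation ring with uniformiser `w` and fraction field `E` (characteristic zero),
`F / E` a field, `x ∈ F` transcendental over `E`, `[F : E(x)] < ∞`, `B` the integral closure of
`R[x]` in `F`, `p₁ ≠ p₂` primes of `B` with `p₁ ⊓ p₂ = w B` such that for `i = 1, 2`

* `htr_i`  : `d(x) ∈ p_i ⟹ w ∣ d` for `d ∈ R[X]` (`x̄` is transcendental on the component);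
* `hsep_i` : every `b ∈ B` is a simple root modulo `p_i` of some `G(x, Y)`, `G ∈ R[X][Y]`
  (the function field of the component is separable over `k(x̄)`).

Then `Spec.SepCoord R E x B` (`sepCoord_of_two_primes`): specialisation of
`H408.exists_basis_discr_not_dvd` to `A = R[X]`, `K = E(x)`, `π = w`.

Also: `SepWrap.isFractionRing_polyK` (`E(x) = Frac R[X]`), `SepWrap.isIntegral_poly_iff`.
-/

set_option autoImplicit false
set_option linter.unusedSectionVars false
set_option linter.style.haveILetI false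

noncomputable section

namespace Fermat.Agent.A2.H408

open Polynomial IntermediateField

namespace SepWrap

variable {R E F : Type*} [CommRing R] [IsDomain R]
  [Field E] [Algebra R E] [IsFractionRing R E]
  [Field F] [Algebra E F] [Algebra R F] [IsScalarTower R E F]

variable (R E) in
/-- `R[X] → E(x)`, `X ↦ x`. -/
@[reducible] def algPolyK (x : F) : Algebra R[X] E⟮x⟯ :=
  (aeval (R := R) (AdjoinSimple.gen E x)).toRingHom.toAlgebra

variable (R) in
/-- `R[X] → F`, `X ↦ x`. -/
@[reducible] def algPolyF (x : F) : Algebra R[X] F :=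
  (aeval (R := R) x).toRingHom.toAlgebra

theorem coe_aeval_gen (x : F) (p : R[X]) :
    ((aeval (R := R) (AdjoinSimple.gen E x) p : E⟮x⟯) : F) = aeval x p := by
  have h := Polynomial.hom_eval₂ p (algebraMap R E⟮x⟯) (algebraMap E⟮x⟯ F) (AdjoinSimple.gen E x)
  rw [AdjoinSimple.algebraMap_gen] at h
  exact h

theorem isScalarTower_poly (x : F) :
    letI := algPolyK R E x
    letI := algPolyF R x
    IsScalarTower R[X] E⟮x⟯ F := by
  letI := algPolyK R E x
  letI := algPolyF R x
  refine IsScalarTower.of_algebraMap_eq fun p => ?_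
  exact (coe_aeval_gen x p).symm

theorem aeval_injective_of_transcendental {x : F} (hx : Transcendental E x) :
    Function.Injective (aeval (R := R) x) := by
  intro p q hpq
  have h1 : aeval x (p.map (algebraMap R E)) = aeval x (q.map (algebraMap R E)) := by
    rw [aeval_map_algebraMap, aeval_map_algebraMap, hpq]
  have h2 := (transcendental_iff_injective.mp hx) h1
  exact Polynomial.map_injective _ (IsFractionRing.injective R E) h2

theorem isFractionRing_polyK {x : F} (hx : Transcendental E x) :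
    letI := algPolyK R E x
    IsFractionRing R[X] E⟮x⟯ := by
  letI := algPolyK R E x
  have h1 : ∀ p : R[X], ((algebraMap R[X] E⟮x⟯ p : E⟮x⟯) : F) = aeval x p := coe_aeval_gen x
  haveI : FaithfulSMul R[X] E⟮x⟯ := by
    rw [faithfulSMul_iff_algebraMap_injective]
    intro p q hpq
    apply aeval_injective_of_transcendental (R := R) (E := E) hx
    rw [← h1, ← h1, hpq]
  refine IsFractionRing.of_field _ _ fun z => ?_
  obtain ⟨r, s, hrs⟩ := (mem_adjoin_simple_iff E (z : F)).mp z.2
  obtain ⟨c₁, hc₁m, hc₁⟩ := IsLocalization.integerNormalization_spec (nonZeroDivisors R) r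
  obtain ⟨c₂, hc₂m, hc₂⟩ := IsLocalization.integerNormalization_spec (nonZeroDivisors R) s
  have hne : ∀ c ∈ nonZeroDivisors R, algebraMap R F c ≠ 0 := by
    intro c hc
    rw [IsScalarTower.algebraMap_apply R E F]
    exact (map_ne_zero_iff _ (algebraMap E F).injective).mpr
      ((map_ne_zero_iff _ (IsFractionRing.injective R E)).mpr (nonZeroDivisors.ne_zero hc))
  have e : ∀ (c : R) (r r' : E[X]) , r'= c • r → aeval x r' = algebraMap R F c * aeval x r := by
    intro c r r' h
    rw [h, ← algebraMap_smul E c r, map_smul, Algebra.smul_def,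
      ← IsScalarTower.algebraMap_apply R E F]
  have e₁ := e c₁ r _ hc₁
  have e₂ := e c₂ s _ hc₂
  rw [aeval_map_algebraMap] at e₁ e₂
  refine ⟨C (c₂ : R) * IsLocalization.integerNormalization (nonZeroDivisors R) r,
    C (c₁ : R) * IsLocalization.integerNormalization (nonZeroDivisors R) s, Subtype.ext ?_⟩
  rw [hrs, IntermediateField.coe_div, h1, h1, map_mul, map_mul, aeval_C, aeval_C, e₁, e₂]
  have := hne c₁ hc₁m
  have := hne c₂ hc₂m
  by_cases hs : aeval x s = 0
  · simp [hs]
  · field_simp

/-- Integrality over `R[X]` (acting through `X ↦ x`) is integrality over `R[x]`. -/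
theorem isIntegral_poly_iff (x f : F) :
    letI := algPolyF R x
    IsIntegral R[X] f ↔ IsIntegral (Algebra.adjoin R ({x} : Set F)) f := by
  letI := algPolyF R x
  constructor
  · rintro ⟨p, hp, h0⟩
    let φ : R[X] →+* Algebra.adjoin R ({x} : Set F) :=
      ((aeval (R := R) (⟨x, Algebra.subset_adjoin rfl⟩ : Algebra.adjoin R ({x} : Set F))) :
        R[X] →ₐ[R] _).toRingHom
    have hφ : ∀ a : R[X], ((φ a : Algebra.adjoin R ({x} : Set F)) : F) = aeval x a := by
      intro a
      have h := Polynomial.hom_eval₂ a (algebraMap R (Algebra.adjoin R ({x} : Set F)))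
        (algebraMap (Algebra.adjoin R ({x} : Set F)) F)
        (⟨x, Algebra.subset_adjoin rfl⟩ : Algebra.adjoin R ({x} : Set F))
      exact h
    refine ⟨p.map φ, hp.map φ, ?_⟩
    rw [eval₂_map]
    have : (algebraMap (Algebra.adjoin R ({x} : Set F)) F).comp φ = algebraMap R[X] F := by
      ext a
      · exact (hφ (C a)).trans rfl
      · exact (hφ X).trans rfl
    rw [this]
    exact h0
  · rintro ⟨p, hp, h0⟩
    have hsurj : ∀ c : Algebra.adjoin R ({x} : Set F), ∃ a : R[X], aeval x a = (c : F) := by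
      intro c
      have hc : (c : F) ∈ (aeval (R := R) x).range := by
        rw [← Algebra.adjoin_singleton_eq_range_aeval]
        exact c.2
      exact hc
    choose g hg using hsurj
    -- lift `p` to a monic polynomial over `R[X]`
    let P : R[X][X] := X ^ p.natDegree + ∑ i ∈ Finset.range p.natDegree, C (g (p.coeff i)) * X ^ i
    have hPdeg : (∑ i ∈ Finset.range p.natDegree, C (g (p.coeff i)) * X ^ i : R[X][X]).degree <
        (p.natDegree : WithBot ℕ) := by
      refine (Polynomial.degree_sum_le _ _).trans_lt ?_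
      rw [Finset.sup_lt_iff (WithBot.bot_lt_coe _)]
      intro i hi
      refine (Polynomial.degree_C_mul_X_pow_le _ _).trans_lt ?_
      exact_mod_cast Finset.mem_range.mp hi
    have hPm : P.Monic := Polynomial.monic_X_pow_add hPdeg
    refine ⟨P, hPm, ?_⟩
    have h1 : eval₂ (algebraMap R[X] F) f P =
        f ^ p.natDegree + ∑ i ∈ Finset.range p.natDegree, ((p.coeff i : Algebra.adjoin R ({x} : Set F)) : F) * f ^ i := by
      simp only [P, eval₂_add, eval₂_pow, eval₂_X, eval₂_finsetSum, eval₂_mul, eval₂_C]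
      congr 1
      refine Finset.sum_congr rfl fun i _ => ?_
      rw [← hg (p.coeff i)]
      rfl
    rw [h1]
    have h2 := h0
    rw [Polynomial.eval₂_eq_sum_range, Finset.sum_range_succ, hp.coeff_natDegree, map_one,
      one_mul, add_comm] at h2
    exact h2

end SepWrap

open SepWrap

section Wrapper

variable {R E F : Type*} [CommRing R] [IsDomain R] [IsDiscreteValuationRing R]
  [Field E] [CharZero E] [Algebra R E] [IsFractionRing R E]
  [Field F] [Algebra E F] [Algebra R F] [IsScalarTower R E F]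

theorem map_residue_ne_zero_of_not_C_dvd {w : R} (hw : Irreducible w) {d : R[X]}
    (hd : ¬ C w ∣ d) : d.map (IsLocalRing.residue R) ≠ 0 := by
  intro h0
  apply hd
  rw [Polynomial.C_dvd_iff_dvd_coeff]
  intro i
  have h1 : (d.map (IsLocalRing.residue R)).coeff i = 0 := by rw [h0, coeff_zero]
  rw [coeff_map, IsLocalRing.residue_eq_zero_iff, hw.maximalIdeal_eq,
    Ideal.mem_span_singleton] at h1
  exact h1

set_option maxHeartbeats 1000000 in
/-- **`SepCoord` from two cuts** (wrapper of `exists_basis_discr_not_dvd` at `A = R[X]`). -/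
theorem sepCoord_of_two_primes {w : R} (hw : Irreducible w) {x : F} (hx : Transcendental E x)
    (hfin : FiniteDimensional E⟮x⟯ F) (B : Subalgebra R F)
    (hB : ∀ f : F, f ∈ B ↔ IsIntegral (Algebra.adjoin R ({x} : Set F)) f)
    (p₁ p₂ : Ideal B) (hp₁ : p₁.IsPrime) (hp₂ : p₂.IsPrime) (hne : p₁ ≠ p₂)
    (hinf : p₁ ⊓ p₂ = Ideal.span {algebraMap R B w})
    (htr₁ : ∀ (d : R[X]) (β : B), (β : F) = aeval x d → β ∈ p₁ → C w ∣ d)
    (htr₂ : ∀ (d : R[X]) (β : B), (β : F) = aeval x d → β ∈ p₂ → C w ∣ d)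
    (hsep₁ : ∀ b : B, ∃ (G : R[X][X]) (g g' : B),
      (g : F) = G.eval₂ (aeval (R := R) x).toRingHom (b : F) ∧
      (g' : F) = (derivative G).eval₂ (aeval (R := R) x).toRingHom (b : F) ∧ g ∈ p₁ ∧ g' ∉ p₁)
    (hsep₂ : ∀ b : B, ∃ (G : R[X][X]) (g g' : B),
      (g : F) = G.eval₂ (aeval (R := R) x).toRingHom (b : F) ∧
      (g' : F) = (derivative G).eval₂ (aeval (R := R) x).toRingHom (b : F) ∧ g ∈ p₂ ∧ g' ∉ p₂) :
    SepCoord R E x B := by
  classical
  letI := algPolyK R E x
  letI := algPolyF R x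
  haveI : IsScalarTower R[X] E⟮x⟯ F := isScalarTower_poly x
  haveI : IsFractionRing R[X] E⟮x⟯ := isFractionRing_polyK hx
  haveI : CharZero E⟮x⟯ := charZero_of_injective_algebraMap (algebraMap E E⟮x⟯).injective
  haveI : Algebra.IsSeparable E⟮x⟯ F := inferInstance
  have hπ : Prime (C w : R[X]) := Polynomial.prime_C_iff.mpr hw.prime
  have hint : ∀ f : F, IsIntegral R[X] f ↔ f ∈ B := fun f =>
    (isIntegral_poly_iff x f).trans (hB f).symm
  -- the identification `integralClosure R[X] F ≃ B`
  let ψ : integralClosure R[X] F →+* B :=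
    { toFun := fun f => ⟨f.1, (hint _).1 f.2⟩
      map_one' := rfl
      map_mul' := fun _ _ => rfl
      map_zero' := rfl
      map_add' := fun _ _ => rfl }
  have hψ : ∀ f : integralClosure R[X] F, ((ψ f : B) : F) = (f : F) := fun _ => rfl
  have hψsurj : Function.Surjective ψ := fun b => ⟨⟨b.1, (hint _).2 b.2⟩, rfl⟩
  have hψinj : Function.Injective ψ := fun a b h =>
    Subtype.ext (congrArg (fun z : B => (z : F)) h)
  have hcoe : ∀ a : R[X], ((algebraMap R[X] (integralClosure R[X] F) a :
      integralClosure R[X] F) : F) = aeval x a := fun _ => rfl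
  have hq₁ : (p₁.comap ψ).IsPrime := Ideal.comap_isPrime ψ p₁
  have hq₂ : (p₂.comap ψ).IsPrime := Ideal.comap_isPrime ψ p₂
  have hqne : p₁.comap ψ ≠ p₂.comap ψ := fun h =>
    hne (Ideal.comap_injective_of_surjective ψ hψsurj h)
  have hqinf : p₁.comap ψ ⊓ p₂.comap ψ =
      Ideal.span {algebraMap R[X] (integralClosure R[X] F) (C w)} := by
    rw [← Ideal.comap_inf, hinf]
    ext f
    rw [Ideal.mem_comap, Ideal.mem_span_singleton, Ideal.mem_span_singleton]
    have hw' : ψ (algebraMap R[X] (integralClosure R[X] F) (C w)) = algebraMap R B w := by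
      apply Subtype.ext
      rw [hψ, hcoe, aeval_C]
      rfl
    constructor
    · rintro ⟨c, hc⟩
      obtain ⟨c', rfl⟩ := hψsurj c
      refine ⟨c', hψinj ?_⟩
      rw [hc, map_mul, hw']
    · rintro ⟨c, rfl⟩
      exact ⟨ψ c, by rw [map_mul, hw']⟩
  have hqtr : ∀ (p : Ideal B), (∀ (d : R[X]) (β : B), (β : F) = aeval x d → β ∈ p → C w ∣ d) →
      ∀ d : R[X], algebraMap R[X] (integralClosure R[X] F) d ∈ p.comap ψ → C w ∣ d :=
    fun p h d hd => h d _ rfl hd
  have hqsep : ∀ (p : Ideal B), (∀ b : B, ∃ (G : R[X][X]) (g g' : B),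
      (g : F) = G.eval₂ (aeval (R := R) x).toRingHom (b : F) ∧
      (g' : F) = (derivative G).eval₂ (aeval (R := R) x).toRingHom (b : F) ∧ g ∈ p ∧ g' ∉ p) →
      ∀ b : integralClosure R[X] F, ∃ G : R[X][X],
        aeval b G ∈ p.comap ψ ∧ aeval b (derivative G) ∉ p.comap ψ := by
    intro p h b
    obtain ⟨G, g, g', hg, hg', hgp, hg'p⟩ := h (ψ b)
    have key : ∀ H : R[X][X], ((ψ (aeval b H) : B) : F) =
        H.eval₂ (aeval (R := R) x).toRingHom (b : F) := by
      intro H
      rw [hψ]
      have h := Polynomial.hom_eval₂ H (algebraMap R[X] (integralClosure R[X] F))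
        (algebraMap (integralClosure R[X] F) F) b
      exact h
    refine ⟨G, ?_, ?_⟩
    · rw [Ideal.mem_comap]
      have : ψ (aeval b G) = g := Subtype.ext ((key G).trans hg.symm)
      rw [this]; exact hgp
    · rw [Ideal.mem_comap]
      have : ψ (aeval b (derivative G)) = g' := Subtype.ext ((key _).trans hg'.symm)
      rw [this]; exact hg'p
  obtain ⟨b, hb, hli, d, hd, hdisc⟩ :=
    exists_basis_discr_not_dvd (A := R[X]) (K := E⟮x⟯) (F := F) hπ (p₁.comap ψ) (p₂.comap ψ)
      hq₁ hq₂ hqne hqinf (hqtr p₁ htr₁) (hqtr p₂ htr₂) (hqsep p₁ hsep₁) (hqsep p₂ hsep₂)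
  refine ⟨_, b, fun i => (hint _).1 (hb i), hli, rfl, d, map_residue_ne_zero_of_not_C_dvd hw hd, ?_⟩
  rw [← hdisc, ← IsScalarTower.algebraMap_apply R[X] E⟮x⟯ F]
  rfl

end Wrapper

end Fermat.Agent.A2.H408
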