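import Fermat.Agent.S18.MOD.H396.Sep
import Fermat.Agent.A2.Mod.H31.Biv

/-!
# A2 / MOD S4 (helper408): simple roots modulo `w` from a derivation on the residue side

`R` a discrete valuation ring with uniformiser `w` and perfect residue field `k`, `S` a domain over
`R`, `ρ : S → L` a ring homomorphism into a field `L ⊇ k` lifting the residue map of `R`
(application: `S = V` a Gauss valuation ring, `L = k((t))`, `ρ` = reduction of `t`-expansions),
`D` a `k`-derivation of `L` (`D = d/dt`), `y, b ∈ S` with `D (ρ y) ≠ 0` and `b` algebraic over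
`R[y]`.  Then `b` is a simple root modulo `ker ρ` of some `G(y, Y)`, `G ∈ R[X][Y]`:
`exists_simple_root_of_derivation`.

(Primitive relation mod `w` ⟹ `ρ b` algebraic over `k(ρ y)`; `H396.exists_bivariate_separable`;
lift the coefficients.)  Mathlib + `S18/MOD/H396/Sep` + `A2/Mod/H31/Biv` (both Mathlib-only).
-/

set_option autoImplicit false
set_option linter.unusedSectionVars false
set_option linter.style.haveILetI false

noncomputable section

namespace Fermat.Agent.A2.H408

open Polynomial IntermediateField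

namespace SepRed

variable {R : Type*} [CommRing R] [IsDomain R] [IsDiscreteValuationRing R]

/-- A nonzero bivariate polynomial over a DVR is a power of `w` times a polynomial which is
nonzero modulo `w`. -/
theorem exists_eq_pow_mul_not_dvd {w : R} (hw : Irreducible w) {P : R[X][X]} (hP : P ≠ 0) :
    ∃ (n : ℕ) (P₀ : R[X][X]), P = C (C w) ^ n * P₀ ∧ ¬ C (C w) ∣ P₀ := by
  have hπ : Prime (C (C w) : R[X][X]) :=
    Polynomial.prime_C_iff.mpr (Polynomial.prime_C_iff.mpr hw.prime)
  have hfin : FiniteMultiplicity (C (C w) : R[X][X]) P :=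
    FiniteMultiplicity.of_not_isUnit hπ.not_isUnit hP
  obtain ⟨P₀, h1, h2⟩ := hfin.exists_eq_pow_mul_and_not_dvd
  exact ⟨_, P₀, h1, h2⟩

theorem map_map_residue_ne_zero {w : R} (hw : Irreducible w) {P : R[X][X]}
    (hP : ¬ C (C w) ∣ P) :
    P.map (mapRingHom (IsLocalRing.residue R)) ≠ 0 := by
  intro h0
  apply hP
  rw [Polynomial.C_dvd_iff_dvd_coeff]
  intro i
  rw [Polynomial.C_dvd_iff_dvd_coeff]
  intro j
  have h1 : ((P.map (mapRingHom (IsLocalRing.residue R))).coeff i).coeff j = 0 := by
    rw [h0, coeff_zero, coeff_zero]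
  rw [coeff_map, coe_mapRingHom, coeff_map, IsLocalRing.residue_eq_zero_iff, hw.maximalIdeal_eq,
    Ideal.mem_span_singleton] at h1
  exact h1

end SepRed

open SepRed

section Main

variable {R : Type*} [CommRing R] [IsDomain R] [IsDiscreteValuationRing R]
  [PerfectField (IsLocalRing.ResidueField R)]
  {L : Type*} [Field L] [Algebra (IsLocalRing.ResidueField R) L]
  (D : Derivation (IsLocalRing.ResidueField R) L L)
  {S : Type*} [CommRing S] [IsDomain S] [Algebra R S] [FaithfulSMul R S]

/-- **Simple roots from a derivation on the residue side.**  `ρ : S → L` a ring homomorphism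
lifting the residue map of the discrete valuation ring `R`, `D` a derivation of `L` over the
(perfect) residue field, `y, b ∈ S` with `D (ρ y) ≠ 0` and `b` algebraic over `R[y]`.  Then there
is `G ∈ R[X][Y]` with `ρ (G(y, b)) = 0` and `ρ ((∂G/∂Y)(y, b)) ≠ 0`. -/
theorem exists_simple_root_of_derivation {w : R} (hw : Irreducible w)
    (ρ : S →+* L)
    (hρ : ∀ r : R, ρ (algebraMap R S r) =
      algebraMap (IsLocalRing.ResidueField R) L (IsLocalRing.residue R r))
    (y b : S) (hD : D (ρ y) ≠ 0)
    (P : R[X][X]) (hP : P ≠ 0) (hPyb : P.eval₂ (aeval (R := R) y).toRingHom b = 0) :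
    ∃ G : R[X][X], ρ (G.eval₂ (aeval (R := R) y).toRingHom b) = 0 ∧
      ρ ((derivative G).eval₂ (aeval (R := R) y).toRingHom b) ≠ 0 := by
  classical
  -- compatibility of `ρ` with evaluation
  have hcomp : ρ.comp (aeval (R := R) y).toRingHom =
      ((aeval (R := IsLocalRing.ResidueField R) (ρ y)).toRingHom).comp
        (mapRingHom (IsLocalRing.residue R)) := by
    apply Polynomial.ringHom_ext
    · intro r
      simp only [RingHom.comp_apply, AlgHom.toRingHom_eq_coe, RingHom.coe_coe, aeval_C,
        coe_mapRingHom, map_C]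
      exact hρ r
    · simp only [RingHom.comp_apply, AlgHom.toRingHom_eq_coe, RingHom.coe_coe, aeval_X,
        coe_mapRingHom, map_X]
  have hev : ∀ H : R[X][X], ρ (H.eval₂ (aeval (R := R) y).toRingHom b) =
      (H.map (mapRingHom (IsLocalRing.residue R))).eval₂
        (aeval (R := IsLocalRing.ResidueField R) (ρ y)).toRingHom (ρ b) := by
    intro H
    rw [Polynomial.hom_eval₂, hcomp, eval₂_map]
  -- a relation which is nonzero modulo `w`
  obtain ⟨n, P₀, hPP₀, hP₀⟩ := exists_eq_pow_mul_not_dvd hw hP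
  have hw0 : algebraMap R S w ≠ 0 :=
    (map_ne_zero_iff _ (FaithfulSMul.algebraMap_injective R S)).mpr hw.ne_zero
  have hP₀yb : P₀.eval₂ (aeval (R := R) y).toRingHom b = 0 := by
    rw [hPP₀, eval₂_mul, eval₂_pow, eval₂_C] at hPyb
    have h1 : (aeval (R := R) y).toRingHom (C w) = algebraMap R S w := by
      simp
    rw [h1] at hPyb
    exact (mul_eq_zero.mp hPyb).resolve_left (pow_ne_zero _ hw0)
  have hPbar : P₀.map (mapRingHom (IsLocalRing.residue R)) ≠ 0 := map_map_residue_ne_zero hw hP₀
  have hPbar0 : (P₀.map (mapRingHom (IsLocalRing.residue R))).eval₂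
      (aeval (R := IsLocalRing.ResidueField R) (ρ y)).toRingHom (ρ b) = 0 := by
    rw [← hev, hP₀yb, map_zero]
  -- `ρ b` is algebraic over `k(ρ y)`
  have htr : Transcendental (IsLocalRing.ResidueField R) (ρ y) :=
    Fermat.Agent.S18.MOD.H396.transcendental_of_D_ne_zero D (ρ y) hD
  have halg : IsAlgebraic (IsLocalRing.ResidueField R)⟮ρ y⟯ (ρ b) := by
    refine ⟨Fermat.Agent.A2.Mod.H31.bivMap (ρ y) (P₀.map (mapRingHom (IsLocalRing.residue R))),
      ?_, ?_⟩
    · intro h0
      exact hPbar (Fermat.Agent.A2.Mod.H31.bivMap_injective htr (h0.trans (map_zero _).symm))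
    · rw [Fermat.Agent.A2.Mod.H31.aeval_bivMap, Fermat.Agent.A2.Mod.H31.aevalAeval_eq_eval₂]
      exact hPbar0
  obtain ⟨Q, hQ0, hQ1⟩ :=
    Fermat.Agent.S18.MOD.H396.exists_bivariate_separable D (ρ y) hD (ρ b) halg
  -- lift `Q`
  have hsurj : Function.Surjective (Polynomial.map (mapRingHom (IsLocalRing.residue R))) :=
    Polynomial.map_surjective _
      (Polynomial.map_surjective _ IsLocalRing.residue_surjective)
  obtain ⟨G, rfl⟩ := hsurj Q
  refine ⟨G, ?_, ?_⟩
  · rw [hev]; exact hQ0
  · rw [hev, ← Polynomial.derivative_map]; exact hQ1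

end Main

end Fermat.Agent.A2.H408
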