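import Fermat.Agent.A2.H408.SepCoord
import Fermat.Agent.A2.H408.SepRed
import Fermat.Agent.A2.H408.Coord

/-!
# A2 / MOD S4 (helper408): `Spec.SepCoord` from two reduction maps

Frame of `H489.frame_exists_components` (`R` a DVR with uniformiser `w`, perfect residue field `k`,
`E = Frac R` of characteristic zero, `F / E(y)` finite, `B` = integral closure of `R[y]`,
`p_i = B ∩ 𝔪_{V_i}` primes with `p₁ ≠ p₂`, `p₁ ⊓ p₂ = w B`, `V_i ⊇ R[y]` valuation rings inducing the
Gauss valuation on `R[y]`), together with ring homomorphisms `ρ_i : V_i → L_i` killing `𝔪_{V_i}`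
and lifting the residue map of `R`, and `k`-derivations `D_i` of `L_i` with `D_i (ρ_i y) ≠ 0`
(application: `L_i = k((t))`, `D = d/dt`).  Then `Spec.SepCoord R E y B`:
`sepCoord_of_reductions`.
-/

set_option autoImplicit false
set_option linter.unusedSectionVars false
set_option linter.style.haveILetI false

noncomputable section

namespace Fermat.Agent.A2.H408

open Polynomial IntermediateField SepWrap

section Frame

variable {R E F : Type*} [CommRing R] [IsDomain R] [IsDiscreteValuationRing R]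
  [Field E] [CharZero E] [Algebra R E] [IsFractionRing R E]
  [Field F] [Algebra E F] [Algebra R F] [IsScalarTower R E F]

/-- The `R`-algebra structure of a valuation subring containing the image of `R`. -/
@[reducible] def algVal (V : ValuationSubring F) (hR : ∀ r : R, algebraMap R F r ∈ V) :
    Algebra R V :=
  ((algebraMap R F).codRestrict V.toSubring hR).toAlgebra

theorem algebraMap_injective_RF (R E F : Type*) [CommRing R] [IsDomain R] [Field E]
    [Algebra R E] [IsFractionRing R E] [Field F] [Algebra E F] [Algebra R F]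
    [IsScalarTower R E F] : Function.Injective (algebraMap R F) := by
  rw [IsScalarTower.algebraMap_eq R E F]
  exact (algebraMap E F).injective.comp (IsFractionRing.injective R E)

/-- every element of `F` satisfies a nonzero polynomial relation over `R[y]`. -/
theorem exists_relation {y : F} (hy : Transcendental E y) (hfin : FiniteDimensional E⟮y⟯ F)
    (b : F) : ∃ P : R[X][X], P ≠ 0 ∧ P.eval₂ (aeval (R := R) y).toRingHom b = 0 := by
  letI := algPolyK R E y
  letI := algPolyF R y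
  haveI : IsScalarTower R[X] E⟮y⟯ F := isScalarTower_poly y
  haveI : IsFractionRing R[X] E⟮y⟯ := isFractionRing_polyK hy
  have h1 : IsAlgebraic E⟮y⟯ b := Algebra.IsAlgebraic.isAlgebraic b
  have h2 : IsAlgebraic R[X] b := (IsFractionRing.isAlgebraic_iff R[X] E⟮y⟯ F).mpr h1
  obtain ⟨P, hP0, hP⟩ := h2
  exact ⟨P, hP0, hP⟩

set_option maxHeartbeats 1000000 in
/-- One component: the hypothesis `hsep` of `sepCoord_of_two_primes` from a reduction map with a
derivation. -/
theorem hsep_of_reduction [PerfectField (IsLocalRing.ResidueField R)]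
    {w : R} (hw : Irreducible w) {y : F} (hy : Transcendental E y)
    (hfin : FiniteDimensional E⟮y⟯ F) (B : Subalgebra R F)
    (hB : ∀ f : F, f ∈ B ↔ IsIntegral (Algebra.adjoin R ({y} : Set F)) f)
    (p : Ideal B) (V : ValuationSubring F)
    (hc : ∀ b : B, b ∈ p ↔ (b : F) ∈ V.nonunits)
    (hR : ∀ r : R, algebraMap R F r ∈ V) (hyV : y ∈ V)
    {L : Type*} [Field L] [Algebra (IsLocalRing.ResidueField R) L]
    (D : Derivation (IsLocalRing.ResidueField R) L L) (ρ : V →+* L)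
    (hρ : ∀ r : R, ρ ⟨algebraMap R F r, hR r⟩ =
      algebraMap (IsLocalRing.ResidueField R) L (IsLocalRing.residue R r))
    (hker : ∀ f : V, (f : F) ∈ V.nonunits → ρ f = 0)
    (hD : D (ρ ⟨y, hyV⟩) ≠ 0) :
    ∀ b : B, ∃ (G : R[X][X]) (g g' : B),
      (g : F) = G.eval₂ (aeval (R := R) y).toRingHom (b : F) ∧
      (g' : F) = (derivative G).eval₂ (aeval (R := R) y).toRingHom (b : F) ∧ g ∈ p ∧ g' ∉ p := by
  classical
  intro b
  letI := algVal V hR
  haveI : FaithfulSMul R V := by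
    rw [faithfulSMul_iff_algebraMap_injective]
    intro a c hac
    exact algebraMap_injective_RF R E F (congrArg (fun z : V => (z : F)) hac)
  have hBV : ∀ f : F, f ∈ B → f ∈ V := by
    intro f hf
    exact (isIntegral_adjoin_iff_forall_valuationSubring ({y} : Set F) f).mp ((hB f).mp hf) V hR
      (by rintro z rfl; exact hyV)
  have hyB : y ∈ B := by
    rw [hB]
    exact isIntegral_algebraMap (x := (⟨y, Algebra.subset_adjoin rfl⟩ : Algebra.adjoin R ({y} : Set F)))
  -- evaluation in `V` and in `B`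
  have hcompV : (V.subtype : V →+* F).comp (aeval (R := R) (⟨y, hyV⟩ : V)).toRingHom =
      (aeval (R := R) y).toRingHom := by
    apply Polynomial.ringHom_ext
    · intro r
      simp only [RingHom.comp_apply, AlgHom.toRingHom_eq_coe, RingHom.coe_coe, aeval_C]
      rfl
    · simp only [RingHom.comp_apply, AlgHom.toRingHom_eq_coe, RingHom.coe_coe, aeval_X]
      rfl
  have hcompB : (B.val : B →+* F).comp (aeval (R := R) (⟨y, hyB⟩ : B)).toRingHom =
      (aeval (R := R) y).toRingHom := by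
    apply Polynomial.ringHom_ext
    · intro r
      simp only [RingHom.comp_apply, AlgHom.toRingHom_eq_coe, RingHom.coe_coe, aeval_C]
      rfl
    · simp only [RingHom.comp_apply, AlgHom.toRingHom_eq_coe, RingHom.coe_coe, aeval_X]
      rfl
  have hevV : ∀ (H : R[X][X]) (c : V),
      ((H.eval₂ (aeval (R := R) (⟨y, hyV⟩ : V)).toRingHom c : V) : F) =
        H.eval₂ (aeval (R := R) y).toRingHom (c : F) := by
    intro H c
    have h := Polynomial.hom_eval₂ H (aeval (R := R) (⟨y, hyV⟩ : V)).toRingHom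
      (V.subtype : V →+* F) c
    rw [hcompV] at h
    exact h
  have hevB : ∀ (H : R[X][X]) (c : B),
      ((H.eval₂ (aeval (R := R) (⟨y, hyB⟩ : B)).toRingHom c : B) : F) =
        H.eval₂ (aeval (R := R) y).toRingHom (c : F) := by
    intro H c
    have h := Polynomial.hom_eval₂ H (aeval (R := R) (⟨y, hyB⟩ : B)).toRingHom
      (B.val : B →+* F) c
    rw [hcompB] at h
    exact h
  obtain ⟨P, hP0, hP⟩ := exists_relation (R := R) hy hfin (b : F)
  have hPV : P.eval₂ (aeval (R := R) (⟨y, hyV⟩ : V)).toRingHom (⟨(b : F), hBV _ b.2⟩ : V) = 0 := by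
    apply Subtype.ext
    rw [hevV]
    exact hP
  obtain ⟨G, hG0, hG1⟩ := exists_simple_root_of_derivation D hw ρ
    (fun r => hρ r) (⟨y, hyV⟩ : V) (⟨(b : F), hBV _ b.2⟩ : V) hD P hP0 hPV
  refine ⟨G, G.eval₂ (aeval (R := R) (⟨y, hyB⟩ : B)).toRingHom b,
    (derivative G).eval₂ (aeval (R := R) (⟨y, hyB⟩ : B)).toRingHom b, hevB G b, hevB _ b, ?_, ?_⟩
  · rw [hc, hevB, ← hevV G ⟨(b : F), hBV _ b.2⟩]
    rw [ValuationSubring.mem_nonunits_iff_or]
    by_contra hcon
    push Not at hcon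
    obtain ⟨h0, hinv⟩ := hcon
    have h1 : (G.eval₂ (aeval (R := R) (⟨y, hyV⟩ : V)).toRingHom (⟨(b : F), hBV _ b.2⟩ : V)) *
        ⟨_, hinv⟩ = 1 := Subtype.ext (mul_inv_cancel₀ h0)
    have h2 := congrArg ρ h1
    rw [map_mul, hG0, zero_mul, map_one] at h2
    exact zero_ne_one h2
  · rw [hc, hevB, ← hevV (derivative G) ⟨(b : F), hBV _ b.2⟩]
    intro hmem
    exact hG1 (hker _ hmem)

/-- One component: the hypothesis `htr` of `sepCoord_of_two_primes`. -/
theorem htr_of_prim {w : R} {y : F} (B : Subalgebra R F) (p : Ideal B) (V : ValuationSubring F)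
    (hc : ∀ b : B, b ∈ p ↔ (b : F) ∈ V.nonunits)
    (hprim : ∀ d : R[X], aeval y d ∈ V.nonunits → C w ∣ d) :
    ∀ (d : R[X]) (β : B), (β : F) = aeval y d → β ∈ p → C w ∣ d := by
  intro d β hβ hβp
  apply hprim
  rw [← hβ]
  exact (hc β).mp hβp

/-- **`SepCoord` from two reductions.** -/
theorem sepCoord_of_reductions [PerfectField (IsLocalRing.ResidueField R)]
    {w : R} (hw : Irreducible w) {y : F} (hy : Transcendental E y)
    (hfin : FiniteDimensional E⟮y⟯ F) (B : Subalgebra R F)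
    (hB : ∀ f : F, f ∈ B ↔ IsIntegral (Algebra.adjoin R ({y} : Set F)) f)
    (p₁ p₂ : Ideal B) (hp₁ : p₁.IsPrime) (hp₂ : p₂.IsPrime) (hne : p₁ ≠ p₂)
    (hinf : p₁ ⊓ p₂ = Ideal.span {algebraMap R B w})
    (V₁ V₂ : ValuationSubring F)
    (hc₁ : ∀ b : B, b ∈ p₁ ↔ (b : F) ∈ V₁.nonunits)
    (hc₂ : ∀ b : B, b ∈ p₂ ↔ (b : F) ∈ V₂.nonunits)
    (hR₁ : ∀ r : R, algebraMap R F r ∈ V₁) (hR₂ : ∀ r : R, algebraMap R F r ∈ V₂)
    (hy₁ : y ∈ V₁) (hy₂ : y ∈ V₂)
    (hprim₁ : ∀ d : R[X], aeval y d ∈ V₁.nonunits → C w ∣ d)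
    (hprim₂ : ∀ d : R[X], aeval y d ∈ V₂.nonunits → C w ∣ d)
    {L₁ L₂ : Type*} [Field L₁] [Field L₂] [Algebra (IsLocalRing.ResidueField R) L₁]
    [Algebra (IsLocalRing.ResidueField R) L₂]
    (D₁ : Derivation (IsLocalRing.ResidueField R) L₁ L₁)
    (D₂ : Derivation (IsLocalRing.ResidueField R) L₂ L₂)
    (ρ₁ : V₁ →+* L₁) (ρ₂ : V₂ →+* L₂)
    (hρ₁ : ∀ r : R, ρ₁ ⟨algebraMap R F r, hR₁ r⟩ =
      algebraMap (IsLocalRing.ResidueField R) L₁ (IsLocalRing.residue R r))
    (hρ₂ : ∀ r : R, ρ₂ ⟨algebraMap R F r, hR₂ r⟩ =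
      algebraMap (IsLocalRing.ResidueField R) L₂ (IsLocalRing.residue R r))
    (hker₁ : ∀ f : V₁, (f : F) ∈ V₁.nonunits → ρ₁ f = 0)
    (hker₂ : ∀ f : V₂, (f : F) ∈ V₂.nonunits → ρ₂ f = 0)
    (hD₁ : D₁ (ρ₁ ⟨y, hy₁⟩) ≠ 0) (hD₂ : D₂ (ρ₂ ⟨y, hy₂⟩) ≠ 0) :
    SepCoord R E y B :=
  sepCoord_of_two_primes hw hy hfin B hB p₁ p₂ hp₁ hp₂ hne hinf
    (htr_of_prim B p₁ V₁ hc₁ hprim₁) (htr_of_prim B p₂ V₂ hc₂ hprim₂)
    (hsep_of_reduction hw hy hfin B hB p₁ V₁ hc₁ hR₁ hy₁ D₁ ρ₁ hρ₁ hker₁ hD₁)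
    (hsep_of_reduction hw hy hfin B hB p₂ V₂ hc₂ hR₂ hy₂ D₂ ρ₂ hρ₂ hker₂ hD₂)

end Frame

end Fermat.Agent.A2.H408
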